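import Fermat.Agent.TwES.Neb
import Fermat.Agent.TwExact.Free

/-!
# Transport of relations to the `𝔪`-part of the cohomology with coefficients in `𝒪[Δ]`
-/

set_option autoImplicit false

noncomputable section

open CongruenceSubgroup IsLocalRing
open scoped MatrixGroups

namespace Fermat.Agent.TwES

open TwHecke TwExact HeckeRep

section Stable

variable {ι : Type*} {R : Type*} [CommRing R] {H : Type*} [AddCommGroup H] [Module R H]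

/-- integral polynomials preserve stable submodules -/
theorem cevZ_mem {T : ι → Module.End R H} (hT : ∀ i j, Commute (T i) (T j)) (W : Submodule R H)
    (hW : ∀ i, ∀ w ∈ W, T i w ∈ W) (t : MvPolynomial ι ℤ) {x : H} (hx : x ∈ W) :
    cev (R := ℤ) T hT t x ∈ W := by
  induction t using MvPolynomial.induction_on generalizing x with
  | C a =>
    rw [cev_C, algebraMap_int_eq, eq_intCast, Module.End.intCast_apply]
    exact W.toAddSubgroup.zsmul_mem hx a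
  | add p q hp hq =>
    rw [map_add, LinearMap.add_apply]
    exact W.add_mem (hp hx) (hq hx)
  | mul_X p i hp =>
    rw [map_mul, cev_X, Module.End.mul_apply]
    exact hp (hW i x hx)

end Stable

theorem unitOf_eq_one {M : ℕ} {m : ℤ} (h : (m : ZMod M) = 1) : unitOf M m = 1 := by
  have hu : IsUnit ((m : ℤ) : ZMod M) := h ▸ isUnit_one
  exact Units.ext (by rw [val_unitOf hu, h, Units.val_one])

theorem not_dvd_of_eq_one {M ℓ : ℕ} (hℓ : ℓ.Prime) (h : (ℓ : ZMod M) = 1) : ¬ ℓ ∣ M := by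
  intro hd
  have h1 := congrArg (ZMod.castHom hd (ZMod ℓ)) h
  rw [map_natCast, map_one, ZMod.natCast_self] at h1
  have : Fact (1 < ℓ) := ⟨hℓ.one_lt⟩
  exact zero_ne_one h1

section Trans

variable {𝒪 Δ : Type} [CommRing 𝒪] [IsDomain 𝒪] [CommGroup Δ] [Fintype Δ]

/-- relations hold up to torsion on `(T_{ℓ₀} - ℓ₀ - 1) H¹` -/
theorem exists_smul_relation (N Q₀ : ℕ) [NeZero N] [NeZero Q₀] (S : Set ℕ)
    (hS : ∀ ℓ : ℕ, ℓ.Prime → ℓ ∣ N * Q₀ → ℓ ∈ S) (τ : (ZMod (N * Q₀))ˣ →* Δ)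
    (hτ : ∃ τ₀ : (ZMod Q₀)ˣ →* Δ, τ = τ₀.comp (ZMod.unitsMap (Dvd.intro_left N rfl)))
    (ι : 𝒪 →+* ℂ) (hι : Function.Injective ι)
    (ℓ₀ : {ℓ : Nat.Primes // (ℓ : ℕ) ∉ S}) (hℓ₀ : ((ℓ₀.1 : ℕ) : ZMod (N * Q₀)) = 1)
    (t : MvPolynomial {ℓ : Nat.Primes // (ℓ : ℕ) ∉ S} ℤ) (ht : GalRep.evS (N * Q₀ ^ 2) S t = 0)
    (y : HM (N * Q₀) ((taut 𝒪 τ) ^ 2) (MonoidAlgebra 𝒪 Δ)) :
    ∃ n : 𝒪, n ≠ 0 ∧ (algebraMap 𝒪 (MonoidAlgebra 𝒪 Δ) n) •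
      cev (R := ℤ) (nop (taut 𝒪 τ) S) (nop_commute (taut 𝒪 τ)) t
        (heckeP (N * Q₀) ((taut 𝒪 τ) ^ 2) (MonoidAlgebra 𝒪 Δ) ℓ₀.1 y -
          (((ℓ₀.1 : ℕ) : MonoidAlgebra 𝒪 Δ) + 1) • y) = 0 := by
  have hprime : Fact (ℓ₀.1 : ℕ).Prime := ⟨ℓ₀.1.2⟩
  have hone : unitOf (N * Q₀) (((ℓ₀.1 : ℕ) : ℕ) : ℤ) = 1 :=
    unitOf_eq_one (by rw [Int.cast_natCast, hℓ₀])
  let t' : MvPolynomial {ℓ : Nat.Primes // (ℓ : ℕ) ∉ S} ℤ :=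
    t * (MvPolynomial.X ℓ₀ - MvPolynomial.C (((ℓ₀.1 : ℕ) : ℤ) + 1))
  have hev : ∀ {R : Type} [CommRing R] (χ : (ZMod (N * Q₀))ˣ →* Rˣ)
      (x : HM (N * Q₀) (χ ^ 2) R), cev (R := ℤ) (nop χ S) (nop_commute χ) t' x =
        cev (R := ℤ) (nop χ S) (nop_commute χ) t
          (heckeP (N * Q₀) (χ ^ 2) R ℓ₀.1 x - (((ℓ₀.1 : ℕ) : R) + 1) • x) := by
    intro R _ χ x
    rw [map_mul, Module.End.mul_apply]
    congr 1
    rw [map_sub, cev_X, cev_C, LinearMap.sub_apply, nop, hone, map_one, Units.val_one, one_smul,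
      algebraMap_int_eq, eq_intCast, Module.End.intCast_apply]
    congr 1
    rw [← Int.cast_smul_eq_zsmul R]
    push_cast
    rfl
  obtain ⟨n, hn, h⟩ := exists_smul_cev_eq_zero ι hι τ t' (fun χ x => by
    rw [hev]
    refine relation_nop_bd N Q₀ S hS (χ.comp τ) ?_ t ht _ ?_
    · obtain ⟨τ₀, rfl⟩ := hτ
      exact ⟨χ.comp τ₀, rfl⟩
    · intro σ
      rw [map_sub, map_smul]
      have h1 := bd_heckeH (ℓ := (ℓ₀.1 : ℕ)) ((χ.comp τ) ^ 2) (A := ℂ)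
        (not_dvd_of_eq_one ℓ₀.1.2 hℓ₀) hℓ₀ σ x
      rw [show heckeP (N * Q₀) ((χ.comp τ) ^ 2) ℂ ℓ₀.1 x =
        heckeH (N * Q₀) (ℓ₀.1 : ℕ) ((χ.comp τ) ^ 2) ℂ x from rfl, h1, sub_self]) y
  exact ⟨n, hn, by rw [← hev]; exact h⟩

variable [IsLocalRing (MonoidAlgebra 𝒪 Δ)] [IsNoetherianRing (MonoidAlgebra 𝒪 Δ)]
  [IsAdicComplete (maximalIdeal (MonoidAlgebra 𝒪 Δ)) (MonoidAlgebra 𝒪 Δ)]

/-- **(P2)** Relations between the Hecke operators of level `N Q₀²` hold for the normalised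
operators on the `𝔪`-part of `H¹(Γ₀(N Q₀), 𝒪[Δ])`. -/
theorem relation_Hm (N Q₀ : ℕ) [NeZero N] [NeZero Q₀] (S : Set ℕ)
    (hS : ∀ ℓ : ℕ, ℓ.Prime → ℓ ∣ N * Q₀ → ℓ ∈ S) (τ : (ZMod (N * Q₀))ˣ →* Δ)
    (hτ : ∃ τ₀ : (ZMod Q₀)ˣ →* Δ, τ = τ₀.comp (ZMod.unitsMap (Dvd.intro_left N rfl)))
    (ι : 𝒪 →+* ℂ) (hι : Function.Injective ι) {θ : PIdx S → ResidueField (MonoidAlgebra 𝒪 Δ)}
    (ℓ₀ : PIdx S) (hℓ₀ : ((ℓ₀.1 : ℕ) : ZMod (N * Q₀)) = 1)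
    (hθ : θ ℓ₀ ≠ residue _ (((ℓ₀.1 : ℕ) : MonoidAlgebra 𝒪 Δ) + 1))
    (t : MvPolynomial (PIdx S) ℤ) (ht : GalRep.evS (N * Q₀ ^ 2) S t = 0)
    {x : HM (N * Q₀) ((taut 𝒪 τ) ^ 2) (MonoidAlgebra 𝒪 Δ)}
    (hx : x ∈ Hm (N * Q₀) ((taut 𝒪 τ) ^ 2) (MonoidAlgebra 𝒪 Δ) S θ) :
    cev (R := ℤ) (nop (taut 𝒪 τ) S) (nop_commute (taut 𝒪 τ)) t x = 0 := by
  have hone : unitOf (N * Q₀) (((ℓ₀.1 : ℕ) : ℕ) : ℤ) = 1 :=
    unitOf_eq_one (by rw [Int.cast_natCast, hℓ₀])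
  -- write `x = (T_{ℓ₀} - ℓ₀ - 1) y`
  obtain ⟨y, hy⟩ := (mem_mpart _).mp hx
    (MvPolynomial.X ℓ₀ - MvPolynomial.C (((ℓ₀.1 : ℕ) : MonoidAlgebra 𝒪 Δ) + 1)) (by
      rw [map_sub, evk_X, evk_C]
      exact sub_ne_zero.mpr hθ)
  have hy' : heckeP (N * Q₀) ((taut 𝒪 τ) ^ 2) (MonoidAlgebra 𝒪 Δ) ℓ₀.1 y -
      (((ℓ₀.1 : ℕ) : MonoidAlgebra 𝒪 Δ) + 1) • y = x := by
    rw [← hy, map_sub, cev_X, cev_C, LinearMap.sub_apply, Module.algebraMap_end_apply]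
    rfl
  obtain ⟨n, hn, h⟩ := exists_smul_relation N Q₀ S hS τ hτ ι hι ℓ₀ hℓ₀ t ht y
  rw [hy'] at h
  -- the class lies in the `𝔪`-part, which is torsion-free
  have hmem : cev (R := ℤ) (nop (taut 𝒪 τ) S) (nop_commute (taut 𝒪 τ)) t x ∈
      Hm (N * Q₀) ((taut 𝒪 τ) ^ 2) (MonoidAlgebra 𝒪 Δ) S θ := by
    refine cevZ_mem _ _ (fun i w hw => ?_) t hx
    rw [nop, LinearMap.smul_apply]
    refine Submodule.smul_mem _ _ ?_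
    have := cev_mem_mpart (R := MonoidAlgebra 𝒪 Δ) (θ := θ)
      (hT := hop_commute (N * Q₀) ((taut 𝒪 τ) ^ 2) (MonoidAlgebra 𝒪 Δ) S)
      (MvPolynomial.X i) hw
    rwa [cev_X] at this
  have hne : NonEis (N * Q₀) ((taut 𝒪 τ) ^ 2) S θ := by
    refine ⟨ℓ₀, not_dvd_of_eq_one ℓ₀.1.2 hℓ₀, ?_⟩
    rw [hone, wt_one]
    exact hθ
  refine HmMap_injective hne
    (LinearMap.lsmul (MonoidAlgebra 𝒪 Δ) (MonoidAlgebra 𝒪 Δ) (algebraMap 𝒪 _ n)) ?_ hmem ?_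
  · intro a b hab
    rw [LinearMap.lsmul_apply, LinearMap.lsmul_apply, algebraMap_smul, algebraMap_smul] at hab
    ext g
    have h1 := congrArg (fun f : MonoidAlgebra 𝒪 Δ => f.coeff g) hab
    simp only [MonoidAlgebra.coeff_smul, Finsupp.smul_apply, smul_eq_mul] at h1
    exact mul_left_cancel₀ hn h1
  · rw [← h]
    generalize cev (R := ℤ) (nop (taut 𝒪 τ) S) (nop_commute (taut 𝒪 τ)) t x = z
    induction z using H1.ind with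
    | h c =>
      rw [H1.map_mk, ← H1.mk_smul]
      rfl

end Trans

end Fermat.Agent.TwES
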