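import Fermat.Agent.TwES.Main
import Fermat.Agent.HeckeRep.Transport
import Fermat.Agent.TwHecke.Par
import Fermat.Agent.GalRep.Input

/-!
# Relations of the Hecke algebra of level `N Q₀²` hold on twisted parabolic classes of level `N Q₀`
-/

set_option autoImplicit false

noncomputable section

open UpperHalfPlane Filter Topology Complex Function CongruenceSubgroup ModularFormClass
open scoped MatrixGroups Manifold ModularForm Real ComplexConjugate ZMod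

namespace Fermat.Agent.TwES

open GenES TwHecke HeckePar TwExact HeckeRep
open TwHecke (chr wt hu unitOf aMap infl)
open FermatAgent.HeckeEigen (heckeOp heckeOp_comm heckeOp_of_dvd heckeOp_of_not_dvd)

/-- the boundary values of a parabolic class vanish -/
theorem bd_eq_zero_of_mem_par {M : ℕ} {R : Type*} [CommRing R] {ε : (ZMod M)ˣ →* Rˣ} {A : Type*}
    [AddCommGroup A] [Module R A] {x : HM M ε A} (hx : x ∈ HM.par M ε A) (σ : SL(2, ℤ)) :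
    bd M ε A σ x = 0 := by
  induction x using H1.ind with
  | h c =>
    rw [H1.mk_mem_par] at hx
    have h1 : IsPar (upar M σ : SL(2, ℤ)) := by
      have := isPar_conj_T σ (M : ℤ)
      rwa [zpow_natCast] at this
    obtain ⟨a, ha⟩ := hx (upar M σ) h1
    rw [bd_mk, ha, chr_upar, Units.val_one, one_smul, sub_self]

/-- **(E1')** with a level given up to equality. -/
theorem relation_par {N M L : ℕ} [NeZero N] [NeZero M] [NeZero L] (hNM : N ∣ M)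
    (ψ : (ZMod N)ˣ →* ℂˣ) (hL : N * M = L) {ε : (ZMod M)ˣ →* ℂˣ} (hε : neb hNM ψ = ε)
    {I : Type*} (pr : I → Nat.Primes) (T : I → Module.End ℂ (HM M ε ℂ))
    (hT : ∀ i, T i = dch ψ ((pr i : ℕ) : ZMod N) • heckeP M ε ℂ (pr i))
    (hTc : ∀ i j, Commute (T i) (T j)) {Q : MvPolynomial I ℂ}
    (hQ : cev (fun i => heckeOp L 2 (pr i)) (fun i j => heckeOp_comm (pr i) (pr j)) Q = 0)
    {x : HM M ε ℂ} (hx : ∀ σ, bd M ε ℂ σ x = 0) : cev T hTc Q x = 0 := by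
  subst hL hε
  obtain rfl : T = opH hNM ψ pr := funext hT
  exact relation_HM hNM ψ pr hQ hx

theorem val_genS (L : ℕ) [NeZero L] (S : Set ℕ) (i : {ℓ : Nat.Primes // (ℓ : ℕ) ∉ S}) :
    ((GalRep.genS L S i : CuspForm.heckeAlgebra L 2 S) :
      Module.End ℂ (CuspForm (Gamma0 L) 2)) = heckeOp L 2 i.1 := by
  rw [GalRep.genS]
  split_ifs with h
  · rw [heckeOp_of_dvd h]; rfl
  · rw [heckeOp_of_not_dvd h]; rfl

theorem cev_heckeOp_eq_zero {L : ℕ} [NeZero L] {S : Set ℕ}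
    {t : MvPolynomial {ℓ : Nat.Primes // (ℓ : ℕ) ∉ S} ℤ} (ht : GalRep.evS L S t = 0) :
    cev (R := ℤ) (fun i : {ℓ : Nat.Primes // (ℓ : ℕ) ∉ S} => heckeOp L 2 i.1)
      (fun i j => heckeOp_comm i.1 j.1) t = 0 := by
  have h1 : (CuspForm.heckeAlgebra L 2 S).val.comp (GalRep.evS L S) =
      cev (R := ℤ) (fun i : {ℓ : Nat.Primes // (ℓ : ℕ) ∉ S} => heckeOp L 2 i.1)
      (fun i j => heckeOp_comm i.1 j.1) := by
    apply MvPolynomial.algHom_ext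
    intro i
    rw [cev_X, AlgHom.comp_apply, GalRep.evS, MvPolynomial.aeval_X]
    exact val_genS L S i
  rw [← h1, AlgHom.comp_apply, ht, map_zero]

/-- **(E1')** in the form used for the twisted Hecke algebras (classes with vanishing boundary
values). -/
theorem relation_nop_bd (N Q₀ : ℕ) [NeZero N] [NeZero Q₀] (S : Set ℕ)
    (hS : ∀ ℓ : ℕ, ℓ.Prime → ℓ ∣ N * Q₀ → ℓ ∈ S) (ψ : (ZMod (N * Q₀))ˣ →* ℂˣ)
    (hψ : ∃ ψ₀ : (ZMod Q₀)ˣ →* ℂˣ, ψ = ψ₀.comp (ZMod.unitsMap (Dvd.intro_left N rfl)))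
    (t : MvPolynomial {ℓ : Nat.Primes // (ℓ : ℕ) ∉ S} ℤ) (ht : GalRep.evS (N * Q₀ ^ 2) S t = 0)
    (x : HM (N * Q₀) (ψ ^ 2) ℂ) (hx : ∀ σ, bd (N * Q₀) (ψ ^ 2) ℂ σ x = 0) :
    cev (R := ℤ) (nop ψ S) (nop_commute ψ) t x = 0 := by
  obtain ⟨ψ₀, rfl⟩ := hψ
  rw [cevZ_eq]
  have hL : Q₀ * (N * Q₀) = N * Q₀ ^ 2 := by ring
  refine relation_par (Dvd.intro_left N rfl) ψ₀ hL (by ext u; rfl) Subtype.val _ ?_ _ ?_ hx
  · intro i
    rw [nop]
    congr 1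
    have hi : ¬ ((i.1 : ℕ) ∣ N * Q₀) := fun h => i.2 (hS _ i.1.2 h)
    have hc : Nat.Coprime (i.1 : ℕ) (N * Q₀) := (Nat.Prime.coprime_iff_not_dvd i.1.2).mpr hi
    have hu1 : IsUnit (((i.1 : ℕ) : ℤ) : ZMod (N * Q₀)) := by
      rw [Int.cast_natCast]
      exact (ZMod.isUnit_iff_coprime _ _).mpr hc
    have hu2 : (((ZMod.unitsMap (Dvd.intro_left N rfl : Q₀ ∣ N * Q₀))
        (unitOf (N * Q₀) ((i.1 : ℕ) : ℤ)) : (ZMod Q₀)ˣ) : ZMod Q₀) = ((i.1 : ℕ) : ZMod Q₀) := by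
      rw [ZMod.unitsMap_def, Units.coe_map, MonoidHom.coe_coe, val_unitOf hu1, Int.cast_natCast,
        map_natCast]
    rw [MonoidHom.comp_apply, dch, ← hu2, MulChar.ofUnitHom_coe]
  · have h1 := cevZ_eq (R := ℂ) (fun i j => heckeOp_comm i.1 j.1) t
      (T := fun i : {ℓ : Nat.Primes // (ℓ : ℕ) ∉ S} => heckeOp (N * Q₀ ^ 2) 2 i.1)
    rw [cev_heckeOp_eq_zero ht] at h1
    exact h1.symm

/-- **(E1')** in the form used for the twisted Hecke algebras. -/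
theorem relation_nop (N Q₀ : ℕ) [NeZero N] [NeZero Q₀] (S : Set ℕ)
    (hS : ∀ ℓ : ℕ, ℓ.Prime → ℓ ∣ N * Q₀ → ℓ ∈ S) (ψ : (ZMod (N * Q₀))ˣ →* ℂˣ)
    (hψ : ∃ ψ₀ : (ZMod Q₀)ˣ →* ℂˣ, ψ = ψ₀.comp (ZMod.unitsMap (Dvd.intro_left N rfl)))
    (t : MvPolynomial {ℓ : Nat.Primes // (ℓ : ℕ) ∉ S} ℤ) (ht : GalRep.evS (N * Q₀ ^ 2) S t = 0)
    (x : HM (N * Q₀) (ψ ^ 2) ℂ) (hx : x ∈ HM.par (N * Q₀) (ψ ^ 2) ℂ) :
    cev (R := ℤ) (nop ψ S) (nop_commute ψ) t x = 0 :=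
  relation_nop_bd N Q₀ S hS ψ hψ t ht x (bd_eq_zero_of_mem_par hx)

end Fermat.Agent.TwES
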