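import Fermat.Agent.TwES.Rel

/-!
# Eigenforms with nebentypus attached to parabolic eigenclasses
-/

set_option autoImplicit false

noncomputable section

open UpperHalfPlane Filter Topology Complex Function CongruenceSubgroup ModularFormClass
open scoped MatrixGroups Manifold ModularForm Real ComplexConjugate ZMod

namespace Fermat.Agent.TwES

open GenES TwHecke HeckePar TwExact HeckeRep
open TwHecke (chr wt hu unitOf aMap infl)
open X1 (diaMat diaMat_11 diaMat_mem dCusp tCusp coe_dCusp coe_tCusp slashSum_hecke pUnit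
  coe_pUnit gamma0_00_mul_11)

variable {M : ℕ} [NeZero M]

/-- A parabolic eigenclass gives an eigenform for all Hecke operators, with nebentypus `ε`. -/
theorem exists_NF_eigen {ε : (ZMod M)ˣ →* ℂˣ} (hε : ε (-1) = 1) {I : Type*} {pr : I → Nat.Primes}
    {lam : I → ℂ} {x : HM M ε ℂ} (hx0 : x ≠ 0) (hx : ∀ σ, bd M ε ℂ σ x = 0)
    (h : ∀ i, heckeP M ε ℂ (pr i) x = lam i • x) :
    ∃ (v : NF ε) (μ : Nat.Primes → ℂ), v ≠ 0 ∧ (∀ ℓ, tP ε ℓ v = μ ℓ • v) ∧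
      ∀ i, μ (pr i) = lam i := by
  have key : ∀ f : NF ε, f ≠ 0 → (∀ i, tP ε (pr i) f = lam i • f) →
      ∃ (v : NF ε) (μ : Nat.Primes → ℂ), v ≠ 0 ∧ (∀ ℓ, tP ε ℓ v = μ ℓ • v) ∧
        ∀ i, μ (pr i) = lam i := by
    intro f hf h
    let W : Submodule ℂ (NF ε) := ⨅ i, LinearMap.ker (tP ε (pr i) - lam i • LinearMap.id)
    have hmem : ∀ w, w ∈ W ↔ ∀ i, tP ε (pr i) w = lam i • w := by
      intro w
      simp only [W, Submodule.mem_iInf, LinearMap.mem_ker, LinearMap.sub_apply,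
        LinearMap.smul_apply, LinearMap.id_apply, sub_eq_zero]
    obtain ⟨v, hvW, hv0, hv⟩ := exists_common_eigenvector (tP ε) tP_commute
      (Module.finrank ℂ W) W rfl (fun h0 => hf (by
        have h1 : f ∈ W := (hmem f).mpr h
        rwa [h0, Submodule.mem_bot] at h1)) (fun ℓ w hw => (hmem _).mpr fun i => by
        have h3 := congrArg (fun F : Module.End ℂ (NF ε) => F w)
          (tP_commute (ε := ε) (pr i) ℓ).eq
        simp only [Module.End.mul_apply] at h3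
        rw [h3, (hmem w).mp hw i, map_smul])
    choose μ hμ using hv
    refine ⟨v, μ, hv0, hμ, fun i => ?_⟩
    have h1 := (hmem v).mp hvW i
    rw [hμ (pr i)] at h1
    exact smul_left_injective ℂ hv0 h1
  obtain ⟨f, g, hfg⟩ := exists_rel hε hx
  have hfeig : ∀ i, tP ε (pr i) f = lam i • f ∧ tP (epsBar ε) (pr i) g = conj (lam i) • g := by
    intro i
    have h1 := hfg.hecke (pr i)
    rw [h i] at h1
    exact h1.unique (hfg.smul (lam i))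
  by_cases hf : f = 0
  · have hg : g ≠ 0 := by
      rintro rfl
      rw [hf] at hfg
      exact hx0 hfg.eq_zero
    refine key (cJ g) (fun h0 => hg (cJ_eq_zero h0)) fun i => ?_
    rw [← cJ_tP, (hfeig i).2, cJ_smul, Complex.conj_conj]
  · exact key f hf fun i => (hfeig i).1

/-- the cusp form attached to an eigenfunction of the Hecke operators on `NF (χ ^ 2)`. -/
theorem nebEig_of_NF (χ : (ZMod M)ˣ →* ℂˣ) {v : NF (χ ^ 2)} {lam : ℕ → ℂ}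
    (hv : ∀ ℓ : Nat.Primes, ¬ (ℓ : ℕ) ∣ M → tP (χ ^ 2) ℓ v = lam ℓ • v) :
    NebEig (dch χ) lam (NF.toF1 v) where
  neb u := by
    apply DFunLike.coe_injective
    show (dch χ (u : ZMod M)) ^ 2 • (dCusp M (Gamma1 M) 2 u (NF.toF1 v) : ℍ → ℂ) = (v : ℍ → ℂ)
    rw [coe_dCusp, NF.coe_toF1]
    have h1 := NF.slash v ⟨diaMat M u, diaMat_mem u⟩
    have h2 : aMap M ⟨diaMat M u, diaMat_mem u⟩ = u⁻¹ := by
      rw [eq_inv_iff_mul_eq_one]
      apply Units.ext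
      rw [Units.val_mul, TwHecke.val_aMap, Units.val_one, ← diaMat_11 u]
      exact gamma0_00_mul_11 (diaMat_mem u)
    have h3 : ((chr M (χ ^ 2) ⟨diaMat M u, diaMat_mem u⟩ : ℂˣ) : ℂ) =
        (dch χ (u : ZMod M) ^ 2)⁻¹ := by
      rw [MonoidHom.comp_apply, h2, map_inv, Units.val_inv_eq_inv_val, MonoidHom.pow_apply,
        Units.val_pow_eq_pow_val, dch, MulChar.ofUnitHom_coe]
    have h4 : dch χ (u : ZMod M) ^ 2 ≠ 0 := pow_ne_zero _ (u.isUnit.map (dch χ)).ne_zero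
    rw [h3] at h1
    have h5 : (v : ℍ → ℂ) ∣[(2 : ℤ)] (diaMat M u) = (dch χ (u : ZMod M) ^ 2)⁻¹ • (v : ℍ → ℂ) := h1
    rw [h5, smul_smul, mul_inv_cancel₀ h4, one_smul]
  eig p hp hpM := by
    apply DFunLike.coe_injective
    show (tCusp M (Gamma1 M) 2 p (NF.toF1 v) : ℍ → ℂ) = lam p • (v : ℍ → ℂ)
    have h0 := congrArg (fun w : NF (χ ^ 2) => (w : ℍ → ℂ)) (hv ⟨p, hp.out⟩ hpM)
    have h1 : tFun p (χ ^ 2) (v : ℍ → ℂ) = lam p • (v : ℍ → ℂ) := h0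
    rw [coe_tCusp, NF.coe_toF1, slashSum_hecke _ p hpM, ← h1, tFun_eq_of_not_dvd p hpM]
    congr 1
    have hc : Nat.Coprime p M := (Nat.Prime.coprime_iff_not_dvd hp.out).mpr hpM
    have h2 := NF.slash v ⟨diaMat M (pUnit M p), diaMat_mem (pUnit M p)⟩
    have hu1 : IsUnit (((p : ℕ) : ℤ) : ZMod M) := by
      rw [Int.cast_natCast]
      exact (ZMod.isUnit_iff_coprime _ _).mpr hc
    have h3 : aMap M ⟨diaMat M (pUnit M p), diaMat_mem (pUnit M p)⟩ = (unitOf M p)⁻¹ := by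
      rw [eq_inv_iff_mul_eq_one]
      apply Units.ext
      rw [Units.val_mul, TwHecke.val_aMap, Units.val_one, val_unitOf hu1, Int.cast_natCast,
        ← coe_pUnit hc, ← diaMat_11 (pUnit M p)]
      exact gamma0_00_mul_11 (diaMat_mem (pUnit M p))
    have h5 : (v : ℍ → ℂ) ∣[(2 : ℤ)] (diaMat M (pUnit M p)) =
        (wt (χ ^ 2) (unitOf M p) : ℂ) • (v : ℍ → ℂ) := by
      have h6 : ((chr M (χ ^ 2) ⟨diaMat M (pUnit M p), diaMat_mem (pUnit M p)⟩ : ℂˣ) : ℂ) =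
          wt (χ ^ 2) (unitOf M p) := by
        rw [MonoidHom.comp_apply, h3, map_inv]; rfl
      rw [h6] at h2
      exact h2
    rw [h5, smul_slash_pos _ _ (ModularForm.det_heckeDiagMatrix_pos p)]

/-- **(E1c)** A parabolic eigenclass in `H¹(Γ₀(M), ℂ(χ²))` gives an eigenform with nebentypus. -/
theorem exists_nebEig (χ : (ZMod M)ˣ →* ℂˣ) {S : Set ℕ} {lam : ℕ → ℂ} {y : HM M (χ ^ 2) ℂ}
    (hy : y ∈ HM.par M (χ ^ 2) ℂ) (hy0 : y ≠ 0)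
    (h : ∀ ℓ : Nat.Primes, (ℓ : ℕ) ∉ S → heckeP M (χ ^ 2) ℂ ℓ y = lam ℓ • y) :
    ∃ (f : CuspForm (Gamma1 M) 2) (lam' : ℕ → ℂ), f ≠ 0 ∧ NebEig (dch χ) lam' f ∧
      ∀ ℓ : ℕ, ℓ.Prime → ℓ ∉ S → lam' ℓ = lam ℓ := by
  obtain ⟨v, μ, hv0, hv, hμ⟩ := exists_NF_eigen (ε := χ ^ 2)
    (by rw [MonoidHom.pow_apply, ← map_pow, neg_one_sq, map_one])
    (pr := fun i : {ℓ : Nat.Primes // (ℓ : ℕ) ∉ S} => i.1) (lam := fun i => lam i.1) hy0
    (bd_eq_zero_of_mem_par hy) (fun i => h i.1 i.2)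
  refine ⟨NF.toF1 v, fun ℓ => if hℓ : ℓ.Prime then μ ⟨ℓ, hℓ⟩ else 0, ?_, ?_, ?_⟩
  · intro h0
    apply hv0
    apply Subtype.ext
    exact congrArg (fun F : CuspForm (Gamma1 M) 2 => (F : ℍ → ℂ)) h0
  · refine nebEig_of_NF χ fun ℓ _ => ?_
    simp only [ℓ.2, dif_pos]
    exact hv ℓ
  · intro ℓ hℓ hS
    simp only [hℓ, dif_pos]
    exact hμ ⟨⟨ℓ, hℓ⟩, hS⟩

/-- **(E1c)** for the normalised operators `χ(ℓ) T_ℓ`. -/
theorem exists_nebEig_nop (χ : (ZMod M)ˣ →* ℂˣ) {S : Set ℕ}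
    (hS : ∀ ℓ : ℕ, ℓ.Prime → ℓ ∣ M → ℓ ∈ S) {a : ℕ → ℂ} {y : HM M (χ ^ 2) ℂ}
    (hy : y ∈ HM.par M (χ ^ 2) ℂ) (hy0 : y ≠ 0)
    (h : ∀ ℓ : {ℓ : Nat.Primes // (ℓ : ℕ) ∉ S}, nop χ S ℓ y = a ℓ.1 • y) :
    ∃ (f : CuspForm (Gamma1 M) 2) (lam' : ℕ → ℂ), f ≠ 0 ∧ NebEig (dch χ) lam' f ∧
      ∀ ℓ : ℕ, ℓ.Prime → ℓ ∉ S → dch χ (ℓ : ZMod M) * lam' ℓ = a ℓ := by
  obtain ⟨f, lam', hf, hneb, hlam⟩ := exists_nebEig (S := S) χ
    (lam := fun ℓ => (((χ (unitOf M ℓ))⁻¹ : ℂˣ) : ℂ) * a ℓ) hy hy0 (fun ℓ hℓ => by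
      have h1 := h ⟨ℓ, hℓ⟩
      rw [nop, LinearMap.smul_apply] at h1
      rw [mul_smul, ← h1, smul_smul, Units.inv_mul, one_smul])
  refine ⟨f, lam', hf, hneb, fun ℓ hℓ hℓS => ?_⟩
  rw [hlam ℓ hℓ hℓS]
  have hc : Nat.Coprime ℓ M :=
    (Nat.Prime.coprime_iff_not_dvd hℓ).mpr fun h => hℓS (hS ℓ hℓ h)
  have hu1 : IsUnit ((ℓ : ℤ) : ZMod M) := by
    rw [Int.cast_natCast]
    exact (ZMod.isUnit_iff_coprime _ _).mpr hc
  have h2 : ((unitOf M ℓ : (ZMod M)ˣ) : ZMod M) = (ℓ : ZMod M) := by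
    rw [val_unitOf hu1, Int.cast_natCast]
  rw [← h2, dch_coe, ← mul_assoc, Units.mul_inv, one_mul]

end Fermat.Agent.TwES
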