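import Mathlib
import Fermat.Agent.TwHecke.OfRep

/-!
# Boundary values of twisted classes and the Hecke operators `T_ℓ`, `ℓ ≡ 1 mod M`
-/

set_option autoImplicit false

noncomputable section

open Matrix.SpecialLinearGroup CongruenceSubgroup
open scoped MatrixGroups

namespace Fermat.Agent.TwES

open TwHecke HeckePar

/-! ### The parabolic elements -/

/-- reduction of an integral matrix -/
abbrev red (M : ℕ) (B : Matrix (Fin 2) (Fin 2) ℤ) : Matrix (Fin 2) (Fin 2) (ZMod M) :=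
  B.map (Int.cast : ℤ → ZMod M)

theorem red_mul (M : ℕ) (B C : Matrix (Fin 2) (Fin 2) ℤ) : red M (B * C) = red M B * red M C := by
  have := Matrix.map_mul (L := B) (M := C) (f := Int.castRingHom (ZMod M))
  exact this

theorem red_one (M : ℕ) : red M 1 = 1 := by
  have := Matrix.map_one (n := Fin 2) (f := (Int.cast : ℤ → ZMod M)) Int.cast_zero Int.cast_one
  exact this

theorem coe_T_pow (n : ℕ) : ((ModularGroup.T ^ n : SL(2, ℤ)) : Matrix (Fin 2) (Fin 2) ℤ) =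
    !![1, (n : ℤ); 0, 1] := by
  have := ModularGroup.coe_T_zpow (n : ℤ)
  rwa [zpow_natCast] at this

theorem red_T_pow (M : ℕ) : red M ((ModularGroup.T ^ M : SL(2, ℤ)) : Matrix (Fin 2) (Fin 2) ℤ) = 1 := by
  rw [coe_T_pow]
  ext i j
  fin_cases i <;> fin_cases j <;> simp [red]

/-- the parabolic matrix attached to `σ`. -/
def upar0 (M : ℕ) (σ : SL(2, ℤ)) : SL(2, ℤ) := σ * ModularGroup.T ^ M * σ⁻¹

theorem coe_mul_inv (σ : SL(2, ℤ)) : (σ : Matrix (Fin 2) (Fin 2) ℤ) *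
    ((σ⁻¹ : SL(2, ℤ)) : Matrix (Fin 2) (Fin 2) ℤ) = 1 := by
  rw [← Matrix.SpecialLinearGroup.coe_mul, mul_inv_cancel, Matrix.SpecialLinearGroup.coe_one]

theorem coe_inv_mul (σ : SL(2, ℤ)) : ((σ⁻¹ : SL(2, ℤ)) : Matrix (Fin 2) (Fin 2) ℤ) *
    (σ : Matrix (Fin 2) (Fin 2) ℤ) = 1 := by
  rw [← Matrix.SpecialLinearGroup.coe_mul, inv_mul_cancel, Matrix.SpecialLinearGroup.coe_one]

theorem red_upar0 (M : ℕ) (σ : SL(2, ℤ)) :
    red M (upar0 M σ : Matrix (Fin 2) (Fin 2) ℤ) = 1 := by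
  rw [upar0, Matrix.SpecialLinearGroup.coe_mul, Matrix.SpecialLinearGroup.coe_mul, red_mul,
    red_mul, red_T_pow, mul_one, ← red_mul, coe_mul_inv, red_one]

theorem mem_Gamma0_of_red {M : ℕ} {g : SL(2, ℤ)} (h : (red M g) 1 0 = 0) : g ∈ Gamma0 M := by
  rw [Gamma0_mem]
  exact h

/-- the parabolic element attached to `σ`. -/
def upar (M : ℕ) (σ : SL(2, ℤ)) : Gamma0 M := ⟨upar0 M σ, mem_Gamma0_of_red (by
  rw [red_upar0]; simp)⟩

theorem aMap_eq_one_of_red {M : ℕ} {g : Gamma0 M}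
    (h : (red M ((g : SL(2, ℤ)) : Matrix (Fin 2) (Fin 2) ℤ)) 0 0 = 1) : aMap M g = 1 := by
  apply Units.ext
  rw [val_aMap, Units.val_one]
  exact h

theorem aMap_upar (M : ℕ) (σ : SL(2, ℤ)) : aMap M (upar M σ) = 1 :=
  aMap_eq_one_of_red (by
    show (red M (upar0 M σ : Matrix (Fin 2) (Fin 2) ℤ)) 0 0 = 1
    rw [red_upar0]; simp)

section Bd

variable (M : ℕ) {R : Type*} [CommRing R] (ε : (ZMod M)ˣ →* Rˣ)
variable (A : Type*) [AddCommGroup A] [Module R A]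

theorem chr_upar (σ : SL(2, ℤ)) : chr M ε (upar M σ) = 1 := by
  rw [MonoidHom.comp_apply, aMap_upar, map_one]

/-- The boundary value at `σ`. -/
def bd (σ : SL(2, ℤ)) : HM M ε A →ₗ[R] A :=
  Submodule.liftQ _
    { toFun := fun c : ZM M ε A => c (upar M σ)
      map_add' := fun _ _ => rfl
      map_smul' := fun _ _ => rfl } (by
    rintro _ ⟨a, rfl⟩
    rw [LinearMap.mem_ker]
    show cobd (chr M ε) A a (upar M σ) = 0
    rw [cobd_apply, chr_upar, Units.val_one, one_smul, sub_self])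

variable {A} in
@[simp] theorem bd_mk (σ : SL(2, ℤ)) (c : ZM M ε A) : bd M ε A σ (H1.mk c) = c (upar M σ) := rfl

end Bd

theorem Z1_apply_pow {Γ : Type*} [Group Γ] {R : Type*} [CommRing R] {ε : Γ →* Rˣ} {A : Type*}
    [AddCommGroup A] [Module R A] (c : Z1 ε A) {g : Γ} (hg : ε g = 1) (n : ℕ) :
    c (g ^ n) = (n : R) • c g := by
  induction n with
  | zero => simp
  | succ n ih =>
    rw [pow_succ, Z1.apply_mul, ih, map_pow, hg, one_pow, Units.val_one, one_smul]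
    push_cast
    rw [add_smul, one_smul]

/-! ### Representatives adapted to a cusp -/

section Reps

variable (M ℓ : ℕ)

/-- the inner matrices -/
def inner : Option (ZMod ℓ) → Matrix (Fin 2) (Fin 2) ℤ
  | none => !![(ℓ : ℤ), 0; 0, 1]
  | some j => !![1, (M : ℤ) * (j.val : ℤ); 0, (ℓ : ℤ)]

/-- the representatives adapted to `σ` -/
def trep (σ : SL(2, ℤ)) (y : Option (ZMod ℓ)) : Matrix (Fin 2) (Fin 2) ℤ :=
  (σ : Matrix (Fin 2) (Fin 2) ℤ) * inner M ℓ y * ((σ⁻¹ : SL(2, ℤ)) : Matrix (Fin 2) (Fin 2) ℤ)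

theorem det_inner (y : Option (ZMod ℓ)) : (inner M ℓ y).det = ℓ := by
  cases y <;> simp [inner, Matrix.det_fin_two_of]

theorem det_trep (σ : SL(2, ℤ)) (y : Option (ZMod ℓ)) : (trep M ℓ σ y).det = ℓ := by
  rw [trep, Matrix.det_mul, Matrix.det_mul, Matrix.SpecialLinearGroup.det_coe,
    Matrix.SpecialLinearGroup.det_coe, det_inner, one_mul, mul_one]

variable {M ℓ}

theorem red_inner (hℓ : ((ℓ : ℕ) : ZMod M) = 1) (y : Option (ZMod ℓ)) :
    red M (inner M ℓ y) = 1 := by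
  cases y with
  | none =>
    ext i j
    fin_cases i <;> fin_cases j <;> simp [inner, red, hℓ]
  | some j =>
    ext i k
    fin_cases i <;> fin_cases k <;> simp [inner, red, hℓ]

theorem red_trep (hℓ : ((ℓ : ℕ) : ZMod M) = 1) (σ : SL(2, ℤ)) (y : Option (ZMod ℓ)) :
    red M (trep M ℓ σ y) = 1 := by
  rw [trep, red_mul, red_mul, red_inner hℓ, mul_one, ← red_mul, coe_mul_inv, red_one]

/-- relation with the standard representatives -/
theorem exists_inner_eq [hp : Fact ℓ.Prime] (hM : ¬ ℓ ∣ M) (x : Option (ZMod ℓ)) :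
    ∃ (y : Option (ZMod ℓ)) (U : SL(2, ℤ)),
      intRep ℓ x = (U : Matrix (Fin 2) (Fin 2) ℤ) * inner M ℓ y := by
  cases x with
  | none => exact ⟨none, 1, by simp [inner]⟩
  | some j =>
    have hu : ((M : ℕ) : ZMod ℓ) ≠ 0 := by
      rwa [Ne, ZMod.natCast_eq_zero_iff]
    have : NeZero ℓ := ⟨hp.out.ne_zero⟩
    set k : ZMod ℓ := ((M : ℕ) : ZMod ℓ)⁻¹ * j with hk
    obtain ⟨q, hq⟩ : (ℓ : ℤ) ∣ (j.val : ℤ) - (M : ℤ) * (k.val : ℤ) := by
      rw [← ZMod.intCast_zmod_eq_zero_iff_dvd]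
      push_cast
      rw [ZMod.natCast_zmod_val, ZMod.natCast_zmod_val, hk, mul_inv_cancel_left₀ hu, sub_self]
    refine ⟨some k, ModularGroup.T ^ q, ?_⟩
    rw [ModularGroup.coe_T_zpow, inner, intRep_some]
    refine mat_ext ?_ ?_ ?_ ?_
    · simp [Matrix.mul_apply, Fin.sum_univ_two]
    · simp only [Matrix.of_apply, Matrix.cons_val', Matrix.cons_val_zero, Matrix.cons_val_one,
        Matrix.cons_val_fin_one, Matrix.mul_apply, Fin.sum_univ_two]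
      linear_combination hq
    · simp [Matrix.mul_apply, Fin.sum_univ_two]
    · simp [Matrix.mul_apply, Fin.sum_univ_two]

theorem inner_inj [hp : Fact ℓ.Prime] (hM : ¬ ℓ ∣ M) {x y : Option (ZMod ℓ)}
    {W : Matrix (Fin 2) (Fin 2) ℤ} (h : inner M ℓ x = W * inner M ℓ y) : x = y := by
  have h00 := congrFun (congrFun h 0) 0
  have h01 := congrFun (congrFun h 0) 1
  have h10 := congrFun (congrFun h 1) 0
  have h11 := congrFun (congrFun h 1) 1
  have : NeZero ℓ := ⟨hp.out.ne_zero⟩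
  have hnot : ¬ (ℓ : ℤ) ∣ 1 := by
    intro h2
    have h3 : ℓ ∣ 1 := by exact_mod_cast h2
    exact hp.out.one_lt.ne' (Nat.dvd_one.mp h3)
  cases x with
  | none =>
    cases y with
    | none => rfl
    | some k =>
      exfalso
      simp [inner, Matrix.mul_apply, Fin.sum_univ_two, -ZMod.natCast_val] at h00 h01 h10 h11
      rw [← h10, zero_mul, zero_add] at h11
      exact hnot ⟨_, by rw [h11]; ring⟩
  | some j =>
    cases y with
    | none =>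
      exfalso
      simp [inner, Matrix.mul_apply, Fin.sum_univ_two, -ZMod.natCast_val] at h00 h01 h10 h11
      exact hnot ⟨_, by rw [h00]; ring⟩
    | some k =>
      simp [inner, Matrix.mul_apply, Fin.sum_univ_two, -ZMod.natCast_val] at h00 h01 h10 h11
      congr 1
      rw [← h00] at h01
      have h2 := congrArg (Int.cast : ℤ → ZMod ℓ) h01
      push_cast at h2
      rw [ZMod.natCast_self, mul_zero, add_zero, ZMod.natCast_zmod_val,
        ZMod.natCast_zmod_val, one_mul] at h2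
      have hu : ((M : ℕ) : ZMod ℓ) ≠ 0 := by
        rwa [Ne, ZMod.natCast_eq_zero_iff]
      exact mul_left_cancel₀ hu h2

theorem trep_inj [hp : Fact ℓ.Prime] (hM : ¬ ℓ ∣ M) (σ : SL(2, ℤ)) (x y : Option (ZMod ℓ))
    (c : Gamma0 M) (h : trep M ℓ σ x =
      ((c : SL(2, ℤ)) : Matrix (Fin 2) (Fin 2) ℤ) * trep M ℓ σ y) : x = y := by
  refine inner_inj hM (W := ((σ⁻¹ : SL(2, ℤ)) : Matrix (Fin 2) (Fin 2) ℤ) *
    ((c : SL(2, ℤ)) : Matrix (Fin 2) (Fin 2) ℤ) * (σ : Matrix (Fin 2) (Fin 2) ℤ)) ?_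
  have h1 := congrArg (fun Z => ((σ⁻¹ : SL(2, ℤ)) : Matrix (Fin 2) (Fin 2) ℤ) * Z *
    (σ : Matrix (Fin 2) (Fin 2) ℤ)) h
  simp only [trep, Matrix.mul_assoc] at h1
  rw [coe_inv_mul, Matrix.mul_one, Matrix.mul_one] at h1
  rw [← Matrix.mul_assoc, coe_inv_mul, Matrix.one_mul] at h1
  rw [h1]
  simp only [Matrix.mul_assoc]

/-- Factorisation of matrices of determinant `ℓ`. -/
theorem exists_trep [hp : Fact ℓ.Prime] (hM : ¬ ℓ ∣ M) (σ : SL(2, ℤ))
    (B : Matrix (Fin 2) (Fin 2) ℤ) (hB : B.det = ℓ) :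
    ∃ (y : Option (ZMod ℓ)) (c : SL(2, ℤ)), B = (c : Matrix (Fin 2) (Fin 2) ℤ) * trep M ℓ σ y := by
  obtain ⟨x, C, hC, hdet, -, -⟩ := exists_factor (N := 1) hp.out
    (B * (σ : Matrix (Fin 2) (Fin 2) ℤ)) 1 (by
      rw [← Matrix.det_fin_two, Matrix.det_mul, Matrix.SpecialLinearGroup.det_coe, hB]) (by simp)
    (fun h => absurd (Nat.dvd_one.mp h) hp.out.one_lt.ne')
  obtain ⟨y, U, hU⟩ := exists_inner_eq hM x.1
  let C' : SL(2, ℤ) := ⟨C, by rw [Matrix.det_fin_two]; exact hdet⟩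
  refine ⟨y, C' * U * σ⁻¹, ?_⟩
  rw [trep, Matrix.SpecialLinearGroup.coe_mul, Matrix.SpecialLinearGroup.coe_mul]
  have h1 : B = B * (σ : Matrix (Fin 2) (Fin 2) ℤ) *
      ((σ⁻¹ : SL(2, ℤ)) : Matrix (Fin 2) (Fin 2) ℤ) := by
    rw [Matrix.mul_assoc, coe_mul_inv, Matrix.mul_one]
  conv_lhs => rw [h1, hC, hU]
  have h2 : (C' : Matrix (Fin 2) (Fin 2) ℤ) = C := rfl
  rw [h2]
  simp only [Matrix.mul_assoc]
  rw [← Matrix.mul_assoc ((σ⁻¹ : SL(2, ℤ)) : Matrix (Fin 2) (Fin 2) ℤ)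
    (σ : Matrix (Fin 2) (Fin 2) ℤ), coe_inv_mul, Matrix.one_mul]

theorem trep_ex [hp : Fact ℓ.Prime] (hM : ¬ ℓ ∣ M) (hℓ : ((ℓ : ℕ) : ZMod M) = 1) (σ : SL(2, ℤ))
    (g : Gamma0 M) (x : Option (ZMod ℓ)) : ∃ (y : Option (ZMod ℓ)) (c : Gamma0 M),
      trep M ℓ σ x * ((g : SL(2, ℤ)) : Matrix (Fin 2) (Fin 2) ℤ) =
        ((c : SL(2, ℤ)) : Matrix (Fin 2) (Fin 2) ℤ) * trep M ℓ σ y := by
  obtain ⟨y, c, hc⟩ := exists_trep hM σ (trep M ℓ σ x * ((g : SL(2, ℤ)) :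
    Matrix (Fin 2) (Fin 2) ℤ)) (by
      rw [Matrix.det_mul, det_trep, Matrix.SpecialLinearGroup.det_coe, mul_one])
  refine ⟨y, ⟨c, mem_Gamma0_of_red ?_⟩, hc⟩
  have h1 := congrArg (red M) hc
  rw [red_mul, red_mul, red_trep hℓ, red_trep hℓ, one_mul, mul_one] at h1
  rw [← h1]
  exact g.2

/-- The Hecke correspondence with representatives adapted to `σ`. -/
def tcorr [hp : Fact ℓ.Prime] (hM : ¬ ℓ ∣ M) (hℓ : ((ℓ : ℕ) : ZMod M) = 1) (σ : SL(2, ℤ)) :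
    Corr (Gamma0 M) (Gamma0 M) (Option (ZMod ℓ)) :=
  Corr.ofRep (trep M ℓ σ) (fun x => by rw [det_trep]; exact_mod_cast hp.out.pos)
    (trep_ex hM hℓ σ) (trep_inj hM σ)

end Reps

section Main

variable {M : ℕ} {R : Type*} [CommRing R] (ε : (ZMod M)ˣ →* Rˣ)
variable {A : Type*} [AddCommGroup A] [Module R A]
variable {ℓ : ℕ} [hp : Fact ℓ.Prime]

theorem tcorr_isRep (hM : ¬ ℓ ∣ M) (hℓ : ((ℓ : ℕ) : ZMod M) = 1) (σ : SL(2, ℤ)) :
    IsRep (tcorr hM hℓ σ) (trep M ℓ σ) := Corr.ofRep_isRep _ _ _ _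

theorem tcorr_isWeight (hM : ¬ ℓ ∣ M) (hℓ : ((ℓ : ℕ) : ZMod M) = 1) (σ : SL(2, ℤ)) :
    (tcorr hM hℓ σ).IsWeight (chr M ε) (chr M ε) (fun _ => (1 : R)) := by
  intro g x
  have h1 : (1 : (ZMod M)ˣ) * aMap M g = aMap M ((tcorr hM hℓ σ).coc g x) * 1 :=
    a_compat (tcorr_isRep hM hℓ σ) (aMap M) (aMap M) (fun _ => rfl) (fun _ => rfl)
      (fun g => g.2) (fun x => by
        have := congrFun (congrFun (red_trep hℓ σ x) 1) 0
        simpa [red] using this) (fun _ => 1) (fun x => by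
        have := congrFun (congrFun (red_trep hℓ σ x) 0) 0
        rw [Units.val_one]
        simpa [red] using this.symm) g x
  rw [one_mul, mul_one] at h1
  show (1 : R) * (ε (aMap M ((tcorr hM hℓ σ).coc g x)) : R) = (ε (aMap M g) : R) * 1
  rw [← h1, one_mul, mul_one]

theorem pInj_intRep : PInj (Gamma0 M) (fun x : HIdx M ℓ => intRep ℓ x.1) := by
  refine pInj_of_det (ℓ : ℤ) (by exact_mod_cast hp.out.pos) (fun y => det_intRep ℓ y.1) ?_
  intro x y c h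
  refine Subtype.ext (intRep_unique hp.out 1 (fun h2 => ?_)
      ((c : SL(2, ℤ)) : Matrix (Fin 2) (Fin 2) ℤ) _ _ ?_)
  · have h3 : ℓ ∣ 1 := by exact_mod_cast h2
    exact hp.out.one_lt.ne' (Nat.dvd_one.mp h3)
  · rw [one_smul]; exact h

theorem hu_eq_one (hℓ : ((ℓ : ℕ) : ZMod M) = 1) (x : HIdx M ℓ) : hu M ℓ x = 1 := by
  apply Units.ext
  rw [val_hu, Units.val_one]
  obtain ⟨x, hx⟩ := x
  cases x with
  | none => simp [hℓ]
  | some j => simp

theorem heckeH_eq_tcorr (hM : ¬ ℓ ∣ M) (hℓ : ((ℓ : ℕ) : ZMod M) = 1) (σ : SL(2, ℤ))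
    (x : HM M ε A) : heckeH M ℓ ε A x = (tcorr hM hℓ σ).tr A (tcorr_isWeight ε hM hℓ σ) x := by
  refine tr_eq_of_card (heckeCorr_isRep M ℓ) (tcorr_isRep hM hℓ σ) pInj_intRep
    (pInj_of_det (ℓ : ℤ) (by exact_mod_cast hp.out.pos) (det_trep M ℓ σ) (trep_inj hM σ))
    (hecke_isWeight M ℓ ε) (tcorr_isWeight ε hM hℓ σ) (fun x => ?_) ?_ x
  · obtain ⟨y, c, hc⟩ := exists_trep hM σ (intRep ℓ x.1) (det_intRep ℓ x.1)
    have h1 := congrArg (red M) hc
    rw [red_mul, red_trep hℓ, mul_one] at h1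
    have h2 : (red M (c : Matrix (Fin 2) (Fin 2) ℤ)) 1 0 = 0 := by
      rw [← h1]
      show ((intRep ℓ x.1 1 0 : ℤ) : ZMod M) = 0
      rw [intRep_lower, Int.cast_zero]
    have h3 : (red M (c : Matrix (Fin 2) (Fin 2) ℤ)) 0 0 = 1 := by
      rw [← h1]
      show ((intRep ℓ x.1 0 0 : ℤ) : ZMod M) = 1
      rw [← val_hu, hu_eq_one hℓ, Units.val_one]
    refine ⟨y, ⟨c, mem_Gamma0_of_red h2⟩, 1, 1, one_pos, one_pos, ?_, ?_⟩
    · rw [one_smul, one_smul]; exact hc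
    · have h4 : aMap M ⟨c, mem_Gamma0_of_red h2⟩ = 1 := aMap_eq_one_of_red h3
      show (1 : R) = wt ε (hu M ℓ x) * (ε (aMap M ⟨c, mem_Gamma0_of_red h2⟩) : R)
      rw [h4, hu_eq_one hℓ, wt_one, map_one, Units.val_one, mul_one]
  · have : NeZero ℓ := ⟨hp.out.ne_zero⟩
    exact Fintype.card_congr (hidxEquivOfNotDvd hM)

theorem coe_upar (σ : SL(2, ℤ)) : ((upar M σ : SL(2, ℤ)) : Matrix (Fin 2) (Fin 2) ℤ) =
    (σ : Matrix (Fin 2) (Fin 2) ℤ) * !![1, (M : ℤ); 0, 1] *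
      ((σ⁻¹ : SL(2, ℤ)) : Matrix (Fin 2) (Fin 2) ℤ) := by
  show ((upar0 M σ : SL(2, ℤ)) : Matrix (Fin 2) (Fin 2) ℤ) = _
  rw [upar0, Matrix.SpecialLinearGroup.coe_mul, Matrix.SpecialLinearGroup.coe_mul, coe_T_pow]

theorem conj_mul_conj (σ : SL(2, ℤ)) (B C : Matrix (Fin 2) (Fin 2) ℤ) :
    ((σ : Matrix (Fin 2) (Fin 2) ℤ) * B * ((σ⁻¹ : SL(2, ℤ)) : Matrix (Fin 2) (Fin 2) ℤ)) *
      ((σ : Matrix (Fin 2) (Fin 2) ℤ) * C * ((σ⁻¹ : SL(2, ℤ)) : Matrix (Fin 2) (Fin 2) ℤ)) =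
    (σ : Matrix (Fin 2) (Fin 2) ℤ) * (B * C) *
      ((σ⁻¹ : SL(2, ℤ)) : Matrix (Fin 2) (Fin 2) ℤ) := by
  simp only [Matrix.mul_assoc]
  rw [← Matrix.mul_assoc ((σ⁻¹ : SL(2, ℤ)) : Matrix (Fin 2) (Fin 2) ℤ)
    (σ : Matrix (Fin 2) (Fin 2) ℤ), coe_inv_mul, Matrix.one_mul]

theorem tcorr_none (hM : ¬ ℓ ∣ M) (hℓ : ((ℓ : ℕ) : ZMod M) = 1) (σ : SL(2, ℤ)) :
    (tcorr hM hℓ σ).coc (upar M σ) none = upar M σ ^ ℓ := by
  have h1 := (tcorr_isRep hM hℓ σ).spec (upar M σ) none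
  have hpow : ((upar M σ ^ ℓ : Gamma0 M) : SL(2, ℤ)) = σ * ModularGroup.T ^ (M * ℓ) * σ⁻¹ := by
    rw [Subgroup.coe_pow]
    show (σ * ModularGroup.T ^ M * σ⁻¹) ^ ℓ = _
    rw [conj_pow, pow_mul]
  have h2 : trep M ℓ σ none * ((upar M σ : SL(2, ℤ)) : Matrix (Fin 2) (Fin 2) ℤ) =
      (((upar M σ ^ ℓ : Gamma0 M) : SL(2, ℤ)) : Matrix (Fin 2) (Fin 2) ℤ) * trep M ℓ σ none := by
    rw [hpow, Matrix.SpecialLinearGroup.coe_mul, Matrix.SpecialLinearGroup.coe_mul, coe_T_pow,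
      coe_upar, trep, conj_mul_conj, conj_mul_conj]
    congr 2
    refine mat_ext ?_ ?_ ?_ ?_ <;>
      simp [inner, Matrix.mul_apply, Fin.sum_univ_two, mul_comm]
  exact (rep_unique (fun x => by rw [det_trep]; exact_mod_cast hp.out.pos) (trep_inj hM σ)
    (h1.symm.trans h2)).2

theorem tcorr_some (hM : ¬ ℓ ∣ M) (hℓ : ((ℓ : ℕ) : ZMod M) = 1) (σ : SL(2, ℤ)) (j : ZMod ℓ) :
    (tcorr hM hℓ σ).coc (upar M σ) (some j) = if j = -1 then upar M σ else 1 := by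
  have : NeZero ℓ := ⟨hp.out.ne_zero⟩
  have h1 := (tcorr_isRep hM hℓ σ).spec (upar M σ) (some j)
  have hval : (((j + 1).val : ℕ) : ℤ) = if j = -1 then 0 else (j.val : ℤ) + 1 := by
    split_ifs with hj
    · rw [hj, neg_add_cancel, ZMod.val_zero]; rfl
    · have hne : j.val + 1 ≠ ℓ := by
        intro h
        apply hj
        have h5 : ((j.val + 1 : ℕ) : ZMod ℓ) = 0 := by rw [h, ZMod.natCast_self]
        push_cast at h5
        rw [ZMod.natCast_zmod_val] at h5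
        exact eq_neg_of_add_eq_zero_left h5
      have hlt : j.val + 1 < ℓ := lt_of_le_of_ne j.val_lt hne
      have hone : (1 : ZMod ℓ).val = 1 := ZMod.val_one_eq_one_mod ℓ ▸ Nat.mod_eq_of_lt hp.out.one_lt
      rw [ZMod.val_add_of_lt (by rw [hone]; exact hlt), hone]
      push_cast
      ring
  have hjl : j = -1 → (j.val : ℤ) + 1 = ℓ := by
    intro hj
    have h5 : ((j.val + 1 : ℕ) : ZMod ℓ) = 0 := by
      push_cast
      rw [ZMod.natCast_zmod_val, hj, neg_add_cancel]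
    rw [ZMod.natCast_eq_zero_iff] at h5
    have h6 : j.val + 1 = ℓ := le_antisymm j.val_lt (Nat.le_of_dvd (Nat.succ_pos _) h5)
    exact_mod_cast h6
  have h2 : trep M ℓ σ (some j) * ((upar M σ : SL(2, ℤ)) : Matrix (Fin 2) (Fin 2) ℤ) =
      (((if j = -1 then upar M σ else 1 : Gamma0 M) : SL(2, ℤ)) : Matrix (Fin 2) (Fin 2) ℤ) *
        trep M ℓ σ (some (j + 1)) := by
    by_cases hj : j = -1
    · rw [if_pos hj, coe_upar, trep, trep, conj_mul_conj, conj_mul_conj]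
      congr 2
      rw [inner, inner, hval, if_pos hj]
      refine mat_ext ?_ ?_ ?_ ?_
      · simp [Matrix.mul_apply, Fin.sum_univ_two]
      · simp only [Matrix.of_apply, Matrix.cons_val', Matrix.cons_val_zero, Matrix.cons_val_one,
          Matrix.cons_val_fin_one, Matrix.mul_apply, Fin.sum_univ_two]
        linear_combination (M : ℤ) * hjl hj
      · simp [Matrix.mul_apply, Fin.sum_univ_two]
      · simp [Matrix.mul_apply, Fin.sum_univ_two]
    · rw [if_neg hj, Subgroup.coe_one, Matrix.SpecialLinearGroup.coe_one, Matrix.one_mul,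
        coe_upar, trep, trep, conj_mul_conj]
      congr 2
      rw [inner, inner, hval, if_neg hj]
      refine mat_ext ?_ ?_ ?_ ?_
      · simp [Matrix.mul_apply, Fin.sum_univ_two]
      · simp only [Matrix.of_apply, Matrix.cons_val', Matrix.cons_val_zero, Matrix.cons_val_one,
          Matrix.cons_val_fin_one, Matrix.mul_apply, Fin.sum_univ_two]
        ring
      · simp [Matrix.mul_apply, Fin.sum_univ_two]
      · simp [Matrix.mul_apply, Fin.sum_univ_two]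
  exact (rep_unique (fun x => by rw [det_trep]; exact_mod_cast hp.out.pos) (trep_inj hM σ)
    (h1.symm.trans h2)).2

/-- **The Hecke operators `T_ℓ`, `ℓ ≡ 1 mod M`, act on boundary values as `ℓ + 1`.** -/
theorem bd_heckeH (hM : ¬ ℓ ∣ M) (hℓ : ((ℓ : ℕ) : ZMod M) = 1) (σ : SL(2, ℤ)) (x : HM M ε A) :
    bd M ε A σ (heckeH M ℓ ε A x) = ((ℓ : R) + 1) • bd M ε A σ x := by
  have : NeZero ℓ := ⟨hp.out.ne_zero⟩
  rw [heckeH_eq_tcorr ε hM hℓ σ]
  induction x using H1.ind with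
  | h c =>
    rw [Corr.tr_mk, bd_mk, bd_mk, Corr.Ztr_apply, Fintype.sum_option, tcorr_none]
    simp only [tcorr_some, one_smul]
    rw [Z1_apply_pow c (chr_upar M ε σ), add_smul, one_smul]
    congr 1
    rw [Finset.sum_eq_single (-1 : ZMod ℓ)]
    · rw [if_pos rfl]
    · intro j _ hj
      rw [if_neg hj, Z1.apply_one]
    · intro h; exact absurd (Finset.mem_univ _) h

end Main

end Fermat.Agent.TwES
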