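import Fermat.Agent.TwES.NF

/-!
# Complex conjugation on cusp forms with nebentypus
-/

set_option autoImplicit false

noncomputable section

open UpperHalfPlane Filter Topology Complex Function CongruenceSubgroup ModularFormClass
open scoped MatrixGroups Manifold ModularForm Real ComplexConjugate

namespace Fermat.Agent.TwES

open GenES TwHecke HeckePar
open TwHecke (chr wt hu unitOf aMap)

local notation "𝕢" => Function.Periodic.qParam

variable {M : ℕ}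

/-- complex conjugate of a character -/
def epsBar (ε : (ZMod M)ˣ →* ℂˣ) : (ZMod M)ˣ →* ℂˣ :=
  (Units.map ((starRingEnd ℂ : ℂ →+* ℂ) : ℂ →* ℂ)).comp ε

@[simp] theorem val_epsBar (ε : (ZMod M)ˣ →* ℂˣ) (u : (ZMod M)ˣ) :
    ((epsBar ε u : ℂˣ) : ℂ) = conj ((ε u : ℂˣ) : ℂ) := rfl

theorem epsBar_epsBar (ε : (ZMod M)ˣ →* ℂˣ) : epsBar (epsBar ε) = ε := by
  refine MonoidHom.ext fun u => Units.ext ?_
  rw [val_epsBar, val_epsBar, Complex.conj_conj]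

theorem wt_epsBar (ε : (ZMod M)ˣ →* ℂˣ) (u : (ZMod M)ˣ) :
    (wt (epsBar ε) u : ℂ) = conj (wt ε u : ℂ) := by
  have h1 : (wt (epsBar ε) u : ℂ) = (((epsBar ε u)⁻¹ : ℂˣ) : ℂ) := rfl
  have h2 : (wt ε u : ℂ) = (((ε u)⁻¹ : ℂˣ) : ℂ) := rfl
  rw [h1, h2, Units.val_inv_eq_inv_val, Units.val_inv_eq_inv_val, val_epsBar, map_inv₀]

lemma slash_J_apply (f : ℍ → ℂ) (z : ℍ) : (f ∣[(2 : ℤ)] J) z = conj (f (J • z)) := by
  rw [ModularForm.slash_apply, sigma_J, denom_J]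
  simp

lemma isRat_J : IsRat J := by
  refine isRat_of_int (A := !![-1, 0; 0, 1]) ?_
  rw [val_J]
  ext i j
  fin_cases i <;> fin_cases j <;> simp

lemma qParam_J (z : ℍ) : conj (𝕢 1 ((J • z : ℍ) : ℂ)) = 𝕢 1 z := by
  rw [coe_J_smul, Function.Periodic.qParam, Function.Periodic.qParam, ← Complex.exp_conj]
  congr 1
  simp only [map_div₀, map_mul, map_neg, Complex.conj_conj, Complex.conj_I, Complex.conj_ofReal,
    map_ofNat]
  ring

lemma QSer.slash_J {f : ℍ → ℂ} {a : ℕ → ℂ} (hf : QSer f a) :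
    QSer (f ∣[(2 : ℤ)] J) (fun n => conj (a n)) := fun τ => by
  rw [slash_J_apply]
  have h := (hf (J • τ)).map (starRingEnd ℂ) continuous_conj
  have h1 : (⇑(starRingEnd ℂ) ∘ fun m => a m • 𝕢 1 ((J • τ : ℍ) : ℂ) ^ m) =
      fun n => conj (a n) • 𝕢 1 τ ^ n := by
    funext n
    simp only [Function.comp_apply, smul_eq_mul, map_mul, map_pow]
    rw [qParam_J]
  rwa [h1] at h

/-- conjugate of an integral matrix by `diag(-1, 1)`. -/
def conjSL (γ : SL(2, ℤ)) : SL(2, ℤ) :=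
  ⟨!![γ 0 0, -γ 0 1; -γ 1 0, γ 1 1], by
    have := det_SL γ
    rw [Matrix.det_fin_two_of]
    linarith⟩

lemma J_mul (γ : SL(2, ℤ)) : J * (γ : GL (Fin 2) ℝ) = (conjSL γ : GL (Fin 2) ℝ) * J := by
  show J * Matrix.SpecialLinearGroup.mapGL ℝ γ = Matrix.SpecialLinearGroup.mapGL ℝ (conjSL γ) * J
  apply Units.ext
  rw [Units.val_mul, Units.val_mul, val_J, val_mapGL, val_mapGL]
  ext i j
  fin_cases i <;> fin_cases j <;> simp [conjSL, Matrix.mul_apply, Fin.sum_univ_two]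

lemma conjSL_mem {γ : SL(2, ℤ)} (h : γ ∈ Gamma0 M) : conjSL γ ∈ Gamma0 M := by
  rw [Gamma0_mem] at h ⊢
  show ((-γ 1 0 : ℤ) : ZMod M) = 0
  rw [Int.cast_neg, h, neg_zero]

lemma chr_conjSL (ε : (ZMod M)ˣ →* ℂˣ) (γ : Gamma0 M) :
    chr M ε ⟨conjSL γ, conjSL_mem γ.2⟩ = chr M ε γ := by
  rw [MonoidHom.comp_apply, MonoidHom.comp_apply]
  congr 1

theorem slash_J_mem {ε : (ZMod M)ˣ →* ℂˣ} {f : ℍ → ℂ} (hf : f ∈ NF (epsBar ε)) :
    f ∣[(2 : ℤ)] J ∈ NF ε := by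
  obtain ⟨hf1, hf2⟩ := hf
  refine ⟨hf1.slash isRat_J, fun γ => ?_⟩
  have h1 := hf2 ⟨conjSL γ, conjSL_mem γ.2⟩
  rw [chr_conjSL] at h1
  rw [ModularForm.SL_slash, ← SlashAction.slash_mul, J_mul, SlashAction.slash_mul,
    ← ModularForm.SL_slash, h1]
  funext z
  rw [slash_J_apply]
  simp only [Pi.smul_apply, smul_eq_mul, map_mul]
  rw [slash_J_apply]
  congr 1
  show conj (((epsBar ε (aMap M γ) : ℂˣ)) : ℂ) = _
  rw [val_epsBar, Complex.conj_conj]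
  rfl

/-- complex conjugation `NF ε̄ → NF ε`. -/
def cJ {ε : (ZMod M)ˣ →* ℂˣ} (f : NF (epsBar ε)) : NF ε := ⟨(f : ℍ → ℂ) ∣[(2 : ℤ)] J, slash_J_mem f.2⟩

variable {ε : (ZMod M)ˣ →* ℂˣ}

theorem cJ_add (f g : NF (epsBar ε)) : cJ (f + g) = cJ f + cJ g :=
  Subtype.ext (SlashAction.add_slash _ _ _ _)

theorem cJ_smul (a : ℂ) (f : NF (epsBar ε)) : cJ (a • f) = conj a • cJ f := by
  apply Subtype.ext
  funext z
  show (((a • (f : ℍ → ℂ)) ∣[(2 : ℤ)] J) z) = conj a * (((f : ℍ → ℂ) ∣[(2 : ℤ)] J) z)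
  rw [slash_J_apply, slash_J_apply]
  simp

theorem cJ_eq_zero {f : NF (epsBar ε)} (h : cJ f = 0) : f = 0 := by
  apply Subtype.ext
  funext z
  have h1 := congrFun (congrArg Subtype.val h) (J • z)
  have h2 : (((f : ℍ → ℂ) ∣[(2 : ℤ)] J) (J • z)) = 0 := h1
  rw [slash_J_apply] at h2
  have h3 : J • (J • z) = z := by
    rw [← mul_smul, ← sq, J_sq, one_smul]
  rw [h3] at h2
  show (f : ℍ → ℂ) z = 0
  exact (map_eq_zero _).mp h2

theorem coeff_cJ [NeZero M] (f : NF (epsBar ε)) (n : ℕ) :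
    qCoeff ((cJ f : NF ε) : ℍ → ℂ) n = conj (qCoeff (f : ℍ → ℂ) n) :=
  NF.coeff_of_qser (cJ f) (QSer.slash_J (NF.qser f)) n

theorem cJ_tP [NeZero M] (ℓ : Nat.Primes) (f : NF (epsBar ε)) :
    cJ (tP (epsBar ε) ℓ f) = tP ε ℓ (cJ f) := by
  apply NF.ext_coeff
  intro n
  rw [coeff_cJ, coeff_tP, coeff_tP, coeff_cJ, coeff_cJ, map_add]
  congr 1
  rw [wt_epsBar]
  split_ifs
  · rw [map_zero]
  · simp only [map_mul, Complex.conj_conj, map_natCast]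
  · rw [map_mul, map_zero, mul_zero, mul_zero]

end Fermat.Agent.TwES
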