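import Fermat.Agent.TwES.Twist
import Fermat.Agent.TwExact.Change

/-!
# Eigenclasses and relations in the twisted cohomology over `ℂ`
-/

set_option autoImplicit false

noncomputable section

open UpperHalfPlane Filter Topology Complex Function CongruenceSubgroup ModularFormClass
open scoped MatrixGroups Manifold ModularForm Real ComplexConjugate ZMod

namespace Fermat.Agent.TwES

open GenES TwHecke HeckePar TwExact
open TwHecke (chr wt hu unitOf aMap infl)
open FermatAgent.HeckeEigen (heckeOp heckeOp_comm)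

/-! ### Common eigenvectors -/

section Common

variable {V : Type*} [AddCommGroup V] [Module ℂ V] [FiniteDimensional ℂ V] {J : Type*}

/-- Commuting operators on a nonzero stable subspace have a common eigenvector. -/
theorem exists_common_eigenvector (T : J → Module.End ℂ V) (hT : ∀ i j, Commute (T i) (T j))
    (n : ℕ) : ∀ W : Submodule ℂ V, Module.finrank ℂ W = n → W ≠ ⊥ →
    (∀ i, ∀ w ∈ W, T i w ∈ W) → ∃ v ∈ W, v ≠ 0 ∧ ∀ i, ∃ μ : ℂ, T i v = μ • v := by
  induction n using Nat.strongRecOn with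
  | ind n ih =>
    intro W hn hW hst
    by_cases hscal : ∀ i, ∃ μ : ℂ, ∀ w ∈ W, T i w = μ • w
    · obtain ⟨v, hv, hv0⟩ := Submodule.exists_mem_ne_zero_of_ne_bot hW
      exact ⟨v, hv, hv0, fun i => (hscal i).imp fun μ h => h v hv⟩
    · push Not at hscal
      obtain ⟨i, hi⟩ := hscal
      -- an eigenvalue of `T i` on `W`
      let Ti : Module.End ℂ W := (T i).restrict (hst i)
      have hnt : Nontrivial W := (Submodule.nontrivial_iff_ne_bot).mpr hW
      obtain ⟨μ, hμ⟩ := Module.End.exists_eigenvalue Ti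
      let W' : Submodule ℂ V := W ⊓ LinearMap.ker (T i - μ • LinearMap.id)
      have hmem : ∀ w, w ∈ W' ↔ w ∈ W ∧ T i w = μ • w := by
        intro w
        rw [Submodule.mem_inf, LinearMap.mem_ker, LinearMap.sub_apply, LinearMap.smul_apply,
          LinearMap.id_apply, sub_eq_zero]
      have hne : W' ≠ ⊥ := by
        obtain ⟨w, hw⟩ := hμ.exists_hasEigenvector
        intro h0
        have h1 : (w : V) ∈ W' := (hmem _).mpr ⟨w.2, by
          have := hw.apply_eq_smul
          exact congrArg Subtype.val this⟩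
        rw [h0, Submodule.mem_bot] at h1
        exact hw.2 (Subtype.ext h1)
      have hlt : W' < W := by
        refine lt_of_le_of_ne inf_le_left fun h0 => ?_
        obtain ⟨w, hw, hw'⟩ := hi μ
        rw [← h0] at hw
        exact hw' ((hmem w).mp hw).2
      obtain ⟨v, hv, hv0, hv'⟩ := ih (Module.finrank ℂ W')
        (by rw [← hn]; exact Submodule.finrank_lt_finrank_of_lt hlt) W' rfl hne (fun j w hw => by
          obtain ⟨h1, h2⟩ := (hmem w).mp hw
          refine (hmem _).mpr ⟨hst j w h1, ?_⟩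
          have h3 := congrArg (fun F : Module.End ℂ V => F w) (hT i j).eq
          simp only [Module.End.mul_apply] at h3
          rw [h3, h2, map_smul])
      exact ⟨v, ((hmem v).mp hv).1, hv0, hv'⟩

end Common

/-! ### Eigenforms with nebentypus -/

section Eigen

variable {M : ℕ} [NeZero M] {ε : (ZMod M)ˣ →* ℂˣ}

theorem eq_zero_of_eigen_of_coeff_one {v : NF ε} {μ : Nat.Primes → ℂ}
    (hv : ∀ ℓ, tP ε ℓ v = μ ℓ • v) (h1 : qCoeff (v : ℍ → ℂ) 1 = 0) : v = 0 := by
  have key : ∀ n : ℕ, qCoeff (v : ℍ → ℂ) n = 0 := by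
    intro n
    induction n using Nat.strongRecOn with
    | ind n ih =>
      rcases Nat.lt_or_ge n 2 with hn | hn
      · interval_cases n
        · exact NF.coeff_zero v
        · exact h1
      · obtain ⟨p, hp, m, rfl⟩ := Nat.exists_prime_and_dvd (show n ≠ 1 by omega)
        have hm : 0 < m := Nat.pos_of_ne_zero (by rintro rfl; simp at hn)
        have hlt : m < p * m := by nlinarith [hp.two_le]
        have h2 := (congrArg (fun w : NF ε => qCoeff (w : ℍ → ℂ) m) (hv ⟨p, hp⟩)).symm.trans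
          (coeff_tP (ε := ε) ⟨p, hp⟩ v m)
        simp only at h2
        rw [NF.coeff_smul, ih m hlt, mul_zero] at h2
        have h3 : (if p ∣ M then (0 : ℂ) else wt ε (unitOf M (p : ℕ)) *
            (if p ∣ m then p * qCoeff (v : ℍ → ℂ) (m / p) else 0)) = 0 := by
          split_ifs with h4 h5
          · rfl
          · rw [ih (m / p) (lt_of_le_of_lt (Nat.div_le_self m p) hlt), mul_zero, mul_zero]
          · rw [mul_zero]
        rw [h3, add_zero] at h2
        exact h2.symm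
  apply NF.ext_coeff
  intro n
  rw [key n]
  have h0 := NF.coeff_smul (ε := ε) 0 v n
  rw [zero_smul, zero_mul] at h0
  exact h0.symm

end Eigen

section Main

variable {N M : ℕ} [NeZero N] [NeZero M] (hNM : N ∣ M) (ψ : (ZMod N)ˣ →* ℂˣ)

omit [NeZero N] [NeZero M] in
theorem neb_neg_one : neb hNM ψ (-1) = 1 := by
  show (ψ ^ 2) (ZMod.unitsMap hNM (-1)) = 1
  have h1 : ZMod.unitsMap hNM (-1) = -1 := by
    apply Units.ext
    rw [ZMod.unitsMap_def, Units.coe_map, MonoidHom.coe_coe, Units.val_neg, Units.val_one,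
      map_neg, map_one, Units.val_neg, Units.val_one]
  rw [h1, MonoidHom.pow_apply, ← map_pow, neg_one_sq, map_one]

/-- twisting an eigenform. -/
theorem exists_eigenform_of_NF {I : Type*} {pr : I → Nat.Primes} {lam : I → ℂ} {f : NF (neb hNM ψ)}
    (hf : f ≠ 0) (h : ∀ i, tP (neb hNM ψ) (pr i) f = lam i • f) :
    ∃ F : CuspForm (Gamma0 (N * M)) 2, F.IsNormalizedEigenform ∧
      (∀ i, qCoeff F (pr i : ℕ) = dch ψ ((pr i : ℕ) : ZMod N) * lam i) ∧
      ∀ ℓ : Nat.Primes, (ℓ : ℕ) ∣ N → qCoeff F ℓ = 0 := by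
  let W : Submodule ℂ (NF (neb hNM ψ)) :=
    ⨅ i, LinearMap.ker (tP (neb hNM ψ) (pr i) - lam i • LinearMap.id)
  have hmem : ∀ w, w ∈ W ↔ ∀ i, tP (neb hNM ψ) (pr i) w = lam i • w := by
    intro w
    simp only [W, Submodule.mem_iInf, LinearMap.mem_ker, LinearMap.sub_apply,
      LinearMap.smul_apply, LinearMap.id_apply, sub_eq_zero]
  obtain ⟨v, hvW, hv0, hv⟩ := exists_common_eigenvector (tP (neb hNM ψ)) tP_commute
    (Module.finrank ℂ W) W rfl (fun h0 => hf (by
      have h1 : f ∈ W := (hmem f).mpr h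
      rwa [h0, Submodule.mem_bot] at h1)) (fun ℓ w hw => (hmem _).mpr fun i => by
      have h3 := congrArg (fun F : Module.End ℂ (NF (neb hNM ψ)) => F w)
        (tP_commute (ε := neb hNM ψ) (pr i) ℓ).eq
      simp only [Module.End.mul_apply] at h3
      rw [h3, (hmem w).mp hw i, map_smul])
  choose μ hμ using hv
  have hμi : ∀ i, μ (pr i) = lam i := by
    intro i
    have h1 := (hmem v).mp hvW i
    rw [hμ (pr i)] at h1
    exact smul_left_injective ℂ hv0 h1
  have htw : tw hNM ψ v ≠ 0 := by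
    intro h0
    apply hv0
    refine eq_zero_of_eigen_of_coeff_one hμ ?_
    have h1 := coeff_tw hNM ψ v 1
    rw [h0, FermatAgent.HeckeEigen.qCoeff_zero, Nat.cast_one, map_one, one_mul] at h1
    exact h1.symm
  obtain ⟨F, hF, -, hFc⟩ := FermatAgent.HeckeEigen.exists_isNormalizedEigenform_of_eigen
    (v := tw hNM ψ v) (χ := fun ℓ => dch ψ ((ℓ : ℕ) : ZMod N) * μ ℓ)
    (fun ℓ => by rw [heckeOp_tw, hμ, map_smul, smul_smul]) htw
  refine ⟨F, hF, fun i => by rw [hFc, hμi], fun ℓ hℓ => ?_⟩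
  rw [hFc]
  have h2 : dch ψ ((ℓ : ℕ) : ZMod N) = 0 := by
    apply MulChar.map_nonunit
    intro hu
    rw [ZMod.isUnit_iff_coprime] at hu
    exact (Nat.Prime.coprime_iff_not_dvd ℓ.2).mp hu hℓ
  rw [h2, zero_mul]

/-- `x` is represented by the forms `f` and `g`. -/
def Rel {ε : (ZMod M)ˣ →* ℂˣ} (x : HM M ε ℂ) (f : NF ε) (g : NF (epsBar ε)) : Prop :=
  ∃ (c : ZM M ε ℂ) (F G : ℍ → ℂ), H1.mk c = x ∧ EqPrim c f g F G

namespace Rel

variable {ε : (ZMod M)ˣ →* ℂˣ} {x x' : HM M ε ℂ} {f f' : NF ε} {g g' : NF (epsBar ε)}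

omit [NeZero M] in
theorem add (h : Rel x f g) (h' : Rel x' f' g') : Rel (x + x') (f + f') (g + g') := by
  obtain ⟨c, F, G, rfl, hc⟩ := h
  obtain ⟨c', F', G', rfl, hc'⟩ := h'
  exact ⟨c + c', F + F', G + G', H1.mk_add _ _, hc.add hc'⟩

omit [NeZero M] in
theorem smul (a : ℂ) (h : Rel x f g) : Rel (a • x) (a • f) (conj a • g) := by
  obtain ⟨c, F, G, rfl, hc⟩ := h
  exact ⟨a • c, a • F, conj a • G, H1.mk_smul _ _, hc.smul a⟩

omit [NeZero M] in
theorem hecke (ℓ : Nat.Primes) (h : Rel x f g) :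
    Rel (heckeP M ε ℂ ℓ x) (tP ε ℓ f) (tP (epsBar ε) ℓ g) := by
  obtain ⟨c, F, G, rfl, hc⟩ := h
  have : Fact (ℓ : ℕ).Prime := ⟨ℓ.2⟩
  exact ⟨heckeZ M ℓ ε ℂ c, _, _, rfl, hc.hecke ℓ⟩

theorem unique (h : Rel x f g) (h' : Rel x f' g') : f = f' ∧ g = g' := by
  obtain ⟨c, F, G, hcx, hc⟩ := h
  obtain ⟨c', F', G', hcx', hc'⟩ := h'
  exact hc.forms_unique hc' (by rw [hcx, hcx'])

omit [NeZero M] in
theorem eq_zero (h : Rel x (0 : NF ε) (0 : NF (epsBar ε))) : x = 0 := by
  obtain ⟨c, F, G, rfl, hc⟩ := h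
  exact hc.eq_zero_of_forms

end Rel

theorem exists_rel {ε : (ZMod M)ˣ →* ℂˣ} (hε : ε (-1) = 1) {x : HM M ε ℂ}
    (hx : ∀ σ, bd M ε ℂ σ x = 0) : ∃ (f : NF ε) (g : NF (epsBar ε)), Rel x f g := by
  induction x using H1.ind with
  | h c =>
    obtain ⟨f, g, F, G, h⟩ := exists_eqPrim hε (c := c) hx
    exact ⟨f, g, c, F, G, rfl, h⟩

/-- **(E1c)** A parabolic eigenclass in `H¹(Γ₀(M), ℂ(ψ²))` gives a normalised eigenform for
`Γ₀(N M)`. -/
theorem exists_eigenform_of_class {I : Type*} {pr : I → Nat.Primes} {lam : I → ℂ}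
    {x : HM M (neb hNM ψ) ℂ} (hx0 : x ≠ 0) (hx : ∀ σ, bd M (neb hNM ψ) ℂ σ x = 0)
    (h : ∀ i, heckeP M (neb hNM ψ) ℂ (pr i) x = lam i • x) :
    ∃ F : CuspForm (Gamma0 (N * M)) 2, F.IsNormalizedEigenform ∧
      (∀ i, qCoeff F (pr i : ℕ) = dch ψ ((pr i : ℕ) : ZMod N) * lam i) ∧
      ∀ ℓ : Nat.Primes, (ℓ : ℕ) ∣ N → qCoeff F ℓ = 0 := by
  obtain ⟨f, g, hfg⟩ := exists_rel (neb_neg_one hNM ψ) hx
  have hfeig : ∀ i, tP (neb hNM ψ) (pr i) f = lam i • f ∧
      tP (epsBar (neb hNM ψ)) (pr i) g = conj (lam i) • g := by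
    intro i
    have h1 := hfg.hecke (pr i)
    rw [h i] at h1
    exact h1.unique (hfg.smul (lam i))
  by_cases hf : f = 0
  · have hg : g ≠ 0 := by
      rintro rfl
      rw [hf] at hfg
      exact hx0 hfg.eq_zero
    refine exists_eigenform_of_NF hNM ψ (f := cJ g) (fun h0 => hg (cJ_eq_zero h0)) fun i => ?_
    rw [← cJ_tP, (hfeig i).2, cJ_smul, Complex.conj_conj]
  · exact exists_eigenform_of_NF hNM ψ hf fun i => (hfeig i).1

/-! ### Transport of relations -/

variable {I : Type*} (pr : I → Nat.Primes)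

/-- twisted Hecke operators on the cohomology. -/
def opH : I → Module.End ℂ (HM M (neb hNM ψ) ℂ) := fun i =>
  dch ψ ((pr i : ℕ) : ZMod N) • heckeP M (neb hNM ψ) ℂ (pr i)

/-- twisted Hecke operators on forms. -/
def opF : I → Module.End ℂ (NF (neb hNM ψ)) := fun i =>
  dch ψ ((pr i : ℕ) : ZMod N) • tP (neb hNM ψ) (pr i)

/-- twisted Hecke operators on forms (conjugate). -/
def opF' : I → Module.End ℂ (NF (epsBar (neb hNM ψ))) := fun i =>
  conj (dch ψ ((pr i : ℕ) : ZMod N)) • tP (epsBar (neb hNM ψ)) (pr i)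

omit [NeZero N] [NeZero M] in
theorem opH_commute (i j : I) : Commute (opH hNM ψ pr i) (opH hNM ψ pr j) :=
  ((heckeP_commute M _ ℂ (pr i) (pr j)).smul_left _).smul_right _

omit [NeZero N] in
theorem opF_commute (i j : I) : Commute (opF hNM ψ pr i) (opF hNM ψ pr j) :=
  ((tP_commute (pr i) (pr j)).smul_left _).smul_right _

omit [NeZero N] in
theorem opF'_commute (i j : I) : Commute (opF' hNM ψ pr i) (opF' hNM ψ pr j) :=
  ((tP_commute (pr i) (pr j)).smul_left _).smul_right _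

/-- Relations on `S₂(Γ₀(N M))` hold for the twisted operators on nebentypus forms. -/
theorem relation_NF {Q : MvPolynomial I ℂ}
    (hQ : cev (fun i => heckeOp (N * M) 2 (pr i)) (fun i j => heckeOp_comm (pr i) (pr j)) Q = 0)
    (f : NF (neb hNM ψ)) : cev (opF hNM ψ pr) (opF_commute hNM ψ pr) Q f = 0 := by
  -- everything in the range of `Q` dies under the twist
  have h1 : ∀ f : NF (neb hNM ψ), tw hNM ψ (cev (opF hNM ψ pr) (opF_commute hNM ψ pr) Q f) = 0 := by
    intro f
    rw [cev_natural (opF_commute hNM ψ pr) (fun i j => heckeOp_comm (pr i) (pr j)) (tw hNM ψ)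
      (fun i x => by
        rw [heckeOp_tw]
        show tw hNM ψ (dch ψ ((pr i : ℕ) : ZMod N) • tP (neb hNM ψ) (pr i) x) = _
        rw [map_smul]), hQ]
    rfl
  have h2 : ∀ (n : ℕ) (f : NF (neb hNM ψ)),
      qCoeff ((cev (opF hNM ψ pr) (opF_commute hNM ψ pr) Q f : NF (neb hNM ψ)) : ℍ → ℂ) n = 0 := by
    intro n
    induction n using Nat.strongRecOn with
    | ind n ih =>
      intro f
      by_cases hc : n.Coprime N
      · have h3 := coeff_tw hNM ψ (cev (opF hNM ψ pr) (opF_commute hNM ψ pr) Q f) n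
        rw [h1, FermatAgent.HeckeEigen.qCoeff_zero] at h3
        have h4 : dch ψ ((n : ℕ) : ZMod N) ≠ 0 := by
          have := ((ZMod.unitOfCoprime n hc).isUnit.map (dch ψ)).ne_zero
          rwa [ZMod.coe_unitOfCoprime] at this
        exact (mul_eq_zero.mp h3.symm).resolve_left h4
      · rcases Nat.eq_zero_or_pos n with rfl | hn
        · exact NF.coeff_zero _
        · obtain ⟨p, hp, hpn, hpN⟩ := Nat.Prime.not_coprime_iff_dvd.mp hc
          obtain ⟨m, rfl⟩ := hpn
          have hm : 0 < m := Nat.pos_of_ne_zero (by rintro rfl; simp at hn)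
          have hlt : m < p * m := by nlinarith [hp.two_le]
          have h5 := coeff_tP (ε := neb hNM ψ) ⟨p, hp⟩
            (cev (opF hNM ψ pr) (opF_commute hNM ψ pr) Q f) m
          simp only at h5
          rw [if_pos (hpN.trans hNM), add_zero] at h5
          rw [← h5, cev_commute (opF_commute hNM ψ pr) (tP (neb hNM ψ) ⟨p, hp⟩) (fun i x => by
            show tP (neb hNM ψ) ⟨p, hp⟩ (dch ψ ((pr i : ℕ) : ZMod N) • tP (neb hNM ψ) (pr i) x) =
              dch ψ ((pr i : ℕ) : ZMod N) • tP (neb hNM ψ) (pr i) (tP (neb hNM ψ) ⟨p, hp⟩ x)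
            rw [map_smul]
            congr 1
            exact congrArg (fun F : Module.End ℂ (NF (neb hNM ψ)) => F x)
              (tP_commute (ε := neb hNM ψ) ⟨p, hp⟩ (pr i)).eq)]
          exact ih m hlt _
  apply NF.ext_coeff
  intro n
  rw [h2 n f]
  have h0 := NF.coeff_smul (ε := neb hNM ψ) 0 f n
  rw [zero_smul, zero_mul] at h0
  exact h0.symm

omit [NeZero N] [NeZero M] in
theorem Rel.cev (Q : MvPolynomial I ℂ) [NeZero M] {x : HM M (neb hNM ψ) ℂ} {f : NF (neb hNM ψ)}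
    {g : NF (epsBar (neb hNM ψ))} (h : Rel x f g) :
    Rel (TwExact.cev (opH hNM ψ pr) (opH_commute hNM ψ pr) Q x)
      (TwExact.cev (opF hNM ψ pr) (opF_commute hNM ψ pr) Q f)
      (TwExact.cev (opF' hNM ψ pr) (opF'_commute hNM ψ pr)
        (MvPolynomial.map (starRingEnd ℂ) Q) g) := by
  induction Q using MvPolynomial.induction_on generalizing x f g with
  | C a =>
    rw [MvPolynomial.map_C, cev_C, cev_C, cev_C, Module.algebraMap_end_apply,
      Module.algebraMap_end_apply, Module.algebraMap_end_apply]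
    exact h.smul a
  | add p q hp hq =>
    rw [map_add, map_add, (MvPolynomial.map (starRingEnd ℂ)).map_add, map_add,
      LinearMap.add_apply, LinearMap.add_apply, LinearMap.add_apply]
    exact (hp h).add (hq h)
  | mul_X p i hp =>
    rw [cev_mul_apply, cev_mul_apply, (MvPolynomial.map (starRingEnd ℂ)).map_mul, cev_mul_apply,
      MvPolynomial.map_X, cev_X, cev_X, cev_X]
    exact hp ((h.hecke (pr i)).smul _)

/-- **(E1')** Relations between Hecke operators on `S₂(Γ₀(N M))` hold for the twisted operators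
`ψ(ℓ) T_ℓ` on the parabolic part of `H¹(Γ₀(M), ℂ(ψ²))`. -/
theorem relation_HM {Q : MvPolynomial I ℂ}
    (hQ : TwExact.cev (fun i => heckeOp (N * M) 2 (pr i))
      (fun i j => heckeOp_comm (pr i) (pr j)) Q = 0)
    {x : HM M (neb hNM ψ) ℂ} (hx : ∀ σ, bd M (neb hNM ψ) ℂ σ x = 0) :
    TwExact.cev (opH hNM ψ pr) (opH_commute hNM ψ pr) Q x = 0 := by
  obtain ⟨f, g, hfg⟩ := exists_rel (neb_neg_one hNM ψ) hx
  have h1 := Rel.cev hNM ψ pr Q hfg
  have h2 := relation_NF hNM ψ pr hQ f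
  have h3 : TwExact.cev (opF' hNM ψ pr) (opF'_commute hNM ψ pr)
      (MvPolynomial.map (starRingEnd ℂ) Q) g = 0 := by
    apply cJ_eq_zero
    have h4 := cev_semilinear (starRingEnd ℂ) (opF'_commute hNM ψ pr) (opF_commute hNM ψ pr)
      (AddMonoidHom.mk' (cJ (ε := neb hNM ψ)) cJ_add) (fun a f => cJ_smul a f) (fun i f => by
        show cJ (conj (dch ψ ((pr i : ℕ) : ZMod N)) • tP (epsBar (neb hNM ψ)) (pr i) f) =
          dch ψ ((pr i : ℕ) : ZMod N) • tP (neb hNM ψ) (pr i) (cJ f)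
        rw [cJ_smul, Complex.conj_conj, cJ_tP]) (MvPolynomial.map (starRingEnd ℂ) Q) g
    rw [MvPolynomial.map_map, show (starRingEnd ℂ).comp (starRingEnd ℂ) = RingHom.id ℂ by
      ext z; simp, MvPolynomial.map_id, relation_NF hNM ψ pr hQ] at h4
    exact h4
  rw [h2, h3] at h1
  exact h1.eq_zero

end Main

end Fermat.Agent.TwES
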