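import Mathlib
import Fermat.Agent.TwHecke.OfRep
import Fermat.Agent.GenES.Twist
import Fermat.Agent.GenES.Main

/-!
# Weight two cusp forms with nebentypus, at the level of functions
-/

set_option autoImplicit false

noncomputable section

open UpperHalfPlane Filter Topology Complex Function CongruenceSubgroup Matrix ModularFormClass
open scoped MatrixGroups Manifold ModularForm Real ComplexConjugate

namespace Fermat.Agent.TwES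

open GenES TwHecke HeckePar
open TwHecke (chr wt hu unitOf aMap)

local notation "𝕢" => Function.Periodic.qParam

variable {M : ℕ}

/-- cusp forms of weight two with `f ∣ γ = ε (γ) f`, as functions. -/
def NF (ε : (ZMod M)ˣ →* ℂˣ) : Submodule ℂ (ℍ → ℂ) where
  carrier := {f | QCusp f ∧ ∀ γ : Gamma0 M, f ∣[(2 : ℤ)] (γ : SL(2, ℤ)) = (chr M ε γ : ℂ) • f}
  zero_mem' := ⟨QCusp.fn_zero, fun γ => by rw [SlashAction.zero_slash, smul_zero]⟩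
  add_mem' := by
    rintro f g ⟨hf, hf'⟩ ⟨hg, hg'⟩
    exact ⟨hf.add hg, fun γ => by rw [SlashAction.add_slash, hf', hg', smul_add]⟩
  smul_mem' := by
    rintro a f ⟨hf, hf'⟩
    exact ⟨hf.smul a, fun γ => by rw [ModularForm.SL_smul_slash, hf', smul_comm]⟩

variable {ε : (ZMod M)ˣ →* ℂˣ}

theorem mem_NF {f : ℍ → ℂ} : f ∈ NF ε ↔ QCusp f ∧
    ∀ γ : Gamma0 M, f ∣[(2 : ℤ)] (γ : SL(2, ℤ)) = (chr M ε γ : ℂ) • f := Iff.rfl

theorem NF.qcusp (f : NF ε) : QCusp (f : ℍ → ℂ) := f.2.1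

theorem NF.slash (f : NF ε) (γ : Gamma0 M) :
    (f : ℍ → ℂ) ∣[(2 : ℤ)] (γ : SL(2, ℤ)) = (chr M ε γ : ℂ) • (f : ℍ → ℂ) := f.2.2 γ

theorem Gamma1_le_Gamma0 (M : ℕ) : Gamma1 M ≤ Gamma0 M := fun γ h =>
  Gamma0_mem.mpr ((Gamma1_mem M γ).mp h).2.2

theorem aMap_of_Gamma1 {γ : SL(2, ℤ)} (h : γ ∈ Gamma1 M) : aMap M ⟨γ, Gamma1_le_Gamma0 M h⟩ = 1 := by
  apply Units.ext
  rw [TwHecke.val_aMap, Units.val_one]
  exact ((Gamma1_mem M γ).mp h).1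

theorem NF.slash_Gamma1 (f : NF ε) {γ : SL(2, ℤ)} (h : γ ∈ Gamma1 M) :
    (f : ℍ → ℂ) ∣[(2 : ℤ)] γ = f := by
  have h1 := NF.slash f ⟨γ, Gamma1_le_Gamma0 M h⟩
  have h2 : chr M ε ⟨γ, Gamma1_le_Gamma0 M h⟩ = 1 := by
    rw [MonoidHom.comp_apply, aMap_of_Gamma1 h, map_one]
  rw [h2, Units.val_one, one_smul] at h1
  exact h1

section Coeff

variable [NeZero M]

/-- the underlying cusp form for `Γ₁(M)`. -/
def NF.toF1 (f : NF ε) : CuspForm (Gamma1 M) 2 :=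
  (NF.qcusp f).toForm fun _ h => NF.slash_Gamma1 f h

@[simp] theorem NF.coe_toF1 (f : NF ε) : ((NF.toF1 f : CuspForm (Gamma1 M) 2) : ℍ → ℂ) = f := rfl

theorem NF.qser (f : NF ε) : QSer (f : ℍ → ℂ) (qCoeff (f : ℍ → ℂ)) :=
  QSer.of_form (one_mem_strictPeriods_Gamma1 M) (NF.toF1 f)

theorem NF.coeff_zero (f : NF ε) : qCoeff (f : ℍ → ℂ) 0 = 0 :=
  CuspFormClass.qExpansion_coeff_zero (NF.toF1 f) one_pos (one_mem_strictPeriods_Gamma1 M)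

theorem NF.ext_coeff {f g : NF ε} (h : ∀ n, qCoeff (f : ℍ → ℂ) n = qCoeff (g : ℍ → ℂ) n) :
    f = g := by
  apply Subtype.ext
  funext τ
  have h1 := NF.qser f τ
  simp only [h] at h1
  exact h1.unique (NF.qser g τ)

theorem NF.coeff_of_qser (f : NF ε) {a : ℕ → ℂ} (h : QSer (f : ℍ → ℂ) a) (n : ℕ) :
    qCoeff (f : ℍ → ℂ) n = a n :=
  QSer.coeff_eq (f := NF.toF1 f) (one_mem_strictPeriods_Gamma1 M) h n

theorem NF.coeff_add (f g : NF ε) (n : ℕ) : qCoeff ((f + g : NF ε) : ℍ → ℂ) n =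
    qCoeff (f : ℍ → ℂ) n + qCoeff (g : ℍ → ℂ) n :=
  NF.coeff_of_qser (f + g) ((NF.qser f).add (NF.qser g)) n

theorem NF.coeff_smul (c : ℂ) (f : NF ε) (n : ℕ) : qCoeff ((c • f : NF ε) : ℍ → ℂ) n =
    c * qCoeff (f : ℍ → ℂ) n :=
  NF.coeff_of_qser (c • f) ((NF.qser f).smul c) n

instance finiteDimensional_NF : FiniteDimensional ℂ (NF ε) := by
  let L : NF ε →ₗ[ℂ] CuspForm (Gamma1 M) 2 :=
    { toFun := fun f => NF.toF1 f
      map_add' := fun _ _ => rfl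
      map_smul' := fun _ _ => rfl }
  refine Module.Finite.of_injective L fun f g h => Subtype.ext ?_
  exact congrArg (fun F : CuspForm (Gamma1 M) 2 => (F : ℍ → ℂ)) h

end Coeff

/-! ### Hecke operators -/

section Hecke

variable (p : ℕ) [hp : Fact p.Prime]

omit hp in
theorem isRat_hrep (x : Option (ZMod p)) : IsRat (hrep p x) := by
  cases x with
  | none => exact isRat_heckeDiagMatrix p
  | some j => exact isRat_heckeMatrix p _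

theorem det_hrep_pos (x : Option (ZMod p)) : 0 < (hrep p x).det.val := by
  rw [Matrix.GeneralLinearGroup.val_det_apply, val_hrep hp.out.ne_zero]
  have h1 : ((intRep p x).map (Int.cast : ℤ → ℝ)).det = (((intRep p x).det : ℤ) : ℝ) := by
    rw [Matrix.det_fin_two, Matrix.det_fin_two]
    simp
  rw [h1, det_intRep]
  exact_mod_cast hp.out.pos

/-- The Hecke operator on functions. -/
def tFun (ε : (ZMod M)ˣ →* ℂˣ) (f : ℍ → ℂ) : ℍ → ℂ :=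
  ∑ x : HIdx M p, wt ε (hu M p x) • (f ∣[(2 : ℤ)] hrep p x.1)

theorem tFun_mem {f : ℍ → ℂ} (hf : f ∈ NF ε) : tFun p ε f ∈ NF ε := by
  obtain ⟨hf1, hf2⟩ := hf
  refine ⟨QCusp.sum _ fun x _ => (hf1.slash (isRat_hrep p x.1)).smul _, fun γ => ?_⟩
  rw [tFun, ModularForm.SL_slash, sum_slash_GL, Finset.smul_sum]
  have key : ∀ x : HIdx M p, (wt ε (hu M p x) • (f ∣[(2 : ℤ)] hrep p x.1)) ∣[(2 : ℤ)]
      ((γ : SL(2, ℤ)) : GL (Fin 2) ℝ) =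
      ((chr M ε γ : ℂ) * wt ε (hu M p ((heckeCorr M p).act γ x))) •
        (f ∣[(2 : ℤ)] hrep p ((heckeCorr M p).act γ x).1) := by
    intro x
    rw [← ModularForm.SL_slash, ModularForm.SL_smul_slash, ModularForm.SL_slash,
      ← SlashAction.slash_mul]
    have h1 : hrep p x.1 * ((γ : SL(2, ℤ)) : GL (Fin 2) ℝ) =
        (((heckeCorr M p).coc γ x : SL(2, ℤ)) : GL (Fin 2) ℝ) *
          hrep p ((heckeCorr M p).act γ x).1 := (heckeSys M p).spec γ x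
    rw [h1, SlashAction.slash_mul, ← ModularForm.SL_slash, hf2,
      smul_slash_pos _ _ (det_hrep_pos p _), smul_smul]
    congr 1
    exact hecke_isWeight M p ε γ x
  simp only [key, smul_smul]
  exact Equiv.sum_comp ((heckeCorr M p).perm γ)
    (fun x => ((chr M ε γ : ℂ) * wt ε (hu M p x)) • (f ∣[(2 : ℤ)] hrep p x.1))

/-- The Hecke operator on cusp forms with nebentypus. -/
def tF (ε : (ZMod M)ˣ →* ℂˣ) : Module.End ℂ (NF ε) where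
  toFun f := ⟨tFun p ε f, tFun_mem p f.2⟩
  map_add' f g := Subtype.ext (by
    show tFun p ε ((f : ℍ → ℂ) + g) = tFun p ε f + tFun p ε g
    simp only [tFun, SlashAction.add_slash, smul_add, Finset.sum_add_distrib])
  map_smul' c f := Subtype.ext (by
    show tFun p ε (c • (f : ℍ → ℂ)) = c • tFun p ε f
    simp only [tFun, Finset.smul_sum]
    refine Finset.sum_congr rfl fun x _ => ?_
    rw [smul_slash_pos _ _ (det_hrep_pos p _), smul_comm])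

@[simp] theorem coe_tF (f : NF ε) : ((tF p ε f : NF ε) : ℍ → ℂ) = tFun p ε f := rfl

theorem tFun_eq_of_dvd (h : p ∣ M) (f : ℍ → ℂ) : tFun p ε f = ModularForm.heckeU 2 p f := by
  rw [heckeU_eq_sum h, tFun]
  refine Finset.sum_congr rfl fun x _ => ?_
  obtain ⟨x, hx⟩ := x
  cases x with
  | none => exact absurd rfl (hx h)
  | some j => rw [hu_some, wt_one, one_smul]

theorem tFun_eq_of_not_dvd (h : ¬ p ∣ M) (f : ℍ → ℂ) : tFun p ε f = ModularForm.heckeU 2 p f +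
    (wt ε (unitOf M p) : ℂ) • (f ∣[(2 : ℤ)] ModularForm.heckeDiagMatrix p) := by
  have : NeZero p := ⟨hp.out.ne_zero⟩
  rw [tFun, ← Equiv.sum_comp (hidxEquivOfNotDvd h).symm, Fintype.sum_option, add_comm,
    ModularForm.heckeU_def, sum_range_eq_sum_zmod]
  congr 1
  · refine Finset.sum_congr rfl fun j _ => ?_
    rw [show (hidxEquivOfNotDvd h).symm (some j) = ⟨some j, fun _ => by simp⟩ from rfl, hu_some,
      wt_one, one_smul]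
    rfl

/-- The coefficients of `T_p f`. -/
theorem coeff_tF [NeZero M] (f : NF ε) (n : ℕ) : qCoeff ((tF p ε f : NF ε) : ℍ → ℂ) n =
    qCoeff (f : ℍ → ℂ) (p * n) + if p ∣ M then 0 else
      wt ε (unitOf M p) * (if p ∣ n then p * qCoeff (f : ℍ → ℂ) (n / p) else 0) := by
  have hU : qCoeff (ModularForm.heckeU 2 p (f : ℍ → ℂ)) n = qCoeff (f : ℍ → ℂ) (p * n) := by
    have := ModularFormClass.qCoeff_heckeU (NF.toF1 f) (one_mem_strictPeriods_Gamma1 M)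
      hp.out.ne_zero n
    rw [ModularForm.coeffHeckeU, mul_comm n p] at this
    exact this
  by_cases h : p ∣ M
  · rw [if_pos h, add_zero, ← hU, coe_tF, tFun_eq_of_dvd p h]
  · rw [if_neg h]
    have h2 : ModularForm.heckeU 2 p (f : ℍ → ℂ) = ((tF p ε f : NF ε) : ℍ → ℂ) +
        (-(wt ε (unitOf M p) : ℂ)) • ((f : ℍ → ℂ) ∣[(2 : ℤ)] ModularForm.heckeDiagMatrix p) := by
      rw [coe_tF, tFun_eq_of_not_dvd p h]
      module
    have h3 : QSer (ModularForm.heckeU 2 p (f : ℍ → ℂ)) (qCoeff ((tF p ε f : NF ε) : ℍ → ℂ) +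
        (-(wt ε (unitOf M p) : ℂ)) •
        fun n => if p ∣ n then p * qCoeff (f : ℍ → ℂ) (n / p) else 0) := by
      rw [h2]
      exact (NF.qser (tF p ε f)).add (((NF.qser f).slash_heckeDiag hp.out.ne_zero).smul _)
    have h4 : MDiff (ModularForm.heckeU 2 p (f : ℍ → ℂ)) := by
      rw [h2]
      exact (NF.qcusp (tF p ε f)).mdiff.add (((NF.qcusp f).mdiff.slash 2 _).const_smul _)
    have h5 := h3.qCoeff_eq h4 n
    rw [hU] at h5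
    rw [h5]
    simp only [Pi.add_apply, Pi.smul_apply, smul_eq_mul]
    ring

end Hecke

section Primes

/-- Hecke operators indexed by bundled primes. -/
def tP (ε : (ZMod M)ˣ →* ℂˣ) (ℓ : Nat.Primes) : Module.End ℂ (NF ε) :=
  haveI : Fact (ℓ : ℕ).Prime := ⟨ℓ.2⟩
  tF ℓ ε

theorem coeff_tP [NeZero M] (ℓ : Nat.Primes) (f : NF ε) (n : ℕ) :
    qCoeff ((tP ε ℓ f : NF ε) : ℍ → ℂ) n =
    qCoeff (f : ℍ → ℂ) ((ℓ : ℕ) * n) + if (ℓ : ℕ) ∣ M then 0 else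
      wt ε (unitOf M (ℓ : ℕ)) * (if (ℓ : ℕ) ∣ n then (ℓ : ℕ) * qCoeff (f : ℍ → ℂ) (n / (ℓ : ℕ)) else 0) := by
  have : Fact (ℓ : ℕ).Prime := ⟨ℓ.2⟩
  exact coeff_tF ℓ f n

/-- The Hecke operators commute. -/
theorem tP_commute [NeZero M] (ℓ ℓ' : Nat.Primes) : Commute (tP ε ℓ) (tP ε ℓ') := by
  rcases eq_or_ne ℓ ℓ' with rfl | hne
  · exact Commute.refl _
  refine LinearMap.ext fun f => NF.ext_coeff fun n => ?_
  show qCoeff ((tP ε ℓ (tP ε ℓ' f) : NF ε) : ℍ → ℂ) n =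
    qCoeff ((tP ε ℓ' (tP ε ℓ f) : NF ε) : ℍ → ℂ) n
  have hne' : (ℓ : ℕ) ≠ (ℓ' : ℕ) := fun h => hne (Subtype.ext h)
  have hc : Nat.Coprime (ℓ : ℕ) (ℓ' : ℕ) := (Nat.coprime_primes ℓ.2 ℓ'.2).mpr hne'
  have e1 : ∀ n : ℕ, ((ℓ' : ℕ) ∣ (ℓ : ℕ) * n ↔ (ℓ' : ℕ) ∣ n) := fun n =>
    ⟨fun h => hc.symm.dvd_of_dvd_mul_left h, fun h => h.mul_left _⟩
  have e2 : ∀ n : ℕ, ((ℓ : ℕ) ∣ (ℓ' : ℕ) * n ↔ (ℓ : ℕ) ∣ n) := fun n =>
    ⟨fun h => hc.dvd_of_dvd_mul_left h, fun h => h.mul_left _⟩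
  have hp0 := ℓ.2.pos
  have hp0' := ℓ'.2.pos
  simp only [coeff_tP, e1, e2]
  by_cases h1 : (ℓ : ℕ) ∣ n
  · obtain ⟨m, rfl⟩ := h1
    by_cases h2 : (ℓ' : ℕ) ∣ m
    · obtain ⟨k, rfl⟩ := h2
      have a1 : (ℓ : ℕ) * ((ℓ' : ℕ) * k) / (ℓ : ℕ) = (ℓ' : ℕ) * k := Nat.mul_div_cancel_left _ hp0
      have a2 : (ℓ : ℕ) * ((ℓ' : ℕ) * k) / (ℓ' : ℕ) = (ℓ : ℕ) * k := by
        rw [mul_left_comm]; exact Nat.mul_div_cancel_left _ hp0'
      have a3 : (ℓ : ℕ) * ((ℓ : ℕ) * ((ℓ' : ℕ) * k)) / (ℓ' : ℕ) = (ℓ : ℕ) * ((ℓ : ℕ) * k) := by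
        rw [show (ℓ : ℕ) * ((ℓ : ℕ) * ((ℓ' : ℕ) * k)) = (ℓ' : ℕ) * ((ℓ : ℕ) * ((ℓ : ℕ) * k)) by ring]
        exact Nat.mul_div_cancel_left _ hp0'
      have a4 : (ℓ' : ℕ) * ((ℓ : ℕ) * ((ℓ' : ℕ) * k)) / (ℓ : ℕ) = (ℓ' : ℕ) * ((ℓ' : ℕ) * k) := by
        rw [mul_left_comm]
        exact Nat.mul_div_cancel_left _ hp0
      have d1 : (ℓ' : ℕ) ∣ (ℓ : ℕ) * ((ℓ' : ℕ) * k) := ⟨(ℓ : ℕ) * k, by ring⟩
      have d2 : (ℓ : ℕ) ∣ (ℓ : ℕ) * ((ℓ' : ℕ) * k) := Dvd.intro _ rfl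
      have d3 : (ℓ' : ℕ) ∣ (ℓ' : ℕ) * k := Dvd.intro _ rfl
      have d4 : (ℓ : ℕ) ∣ (ℓ : ℕ) * k := Dvd.intro _ rfl
      simp only [a1, a2, a3, a4, if_pos d1, if_pos d2, if_pos d3, if_pos d4,
        Nat.mul_div_cancel_left _ hp0, Nat.mul_div_cancel_left _ hp0']
      rw [show (ℓ' : ℕ) * ((ℓ : ℕ) * ((ℓ : ℕ) * ((ℓ' : ℕ) * k))) =
        (ℓ : ℕ) * ((ℓ' : ℕ) * ((ℓ : ℕ) * ((ℓ' : ℕ) * k))) by ring]
      split_ifs <;> ring
    · have d1 : ¬ (ℓ' : ℕ) ∣ (ℓ : ℕ) * m := fun h => h2 ((e1 m).mp h)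
      have d2 : (ℓ : ℕ) ∣ (ℓ : ℕ) * m := Dvd.intro _ rfl
      have a4 : (ℓ' : ℕ) * ((ℓ : ℕ) * m) / (ℓ : ℕ) = (ℓ' : ℕ) * m := by
        rw [mul_left_comm]
        exact Nat.mul_div_cancel_left _ hp0
      simp only [if_neg d1, if_pos d2, if_neg h2, a4, Nat.mul_div_cancel_left _ hp0]
      rw [show (ℓ' : ℕ) * ((ℓ : ℕ) * ((ℓ : ℕ) * m)) = (ℓ : ℕ) * ((ℓ' : ℕ) * ((ℓ : ℕ) * m)) by ring]
      split_ifs <;> ring
  · by_cases h2 : (ℓ' : ℕ) ∣ n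
    · obtain ⟨k, rfl⟩ := h2
      have d1 : ¬ (ℓ : ℕ) ∣ k := fun h => h1 ((e2 k).mpr h)
      have d3 : (ℓ' : ℕ) ∣ (ℓ' : ℕ) * k := Dvd.intro _ rfl
      have a3 : (ℓ : ℕ) * ((ℓ' : ℕ) * k) / (ℓ' : ℕ) = (ℓ : ℕ) * k := by
        rw [mul_left_comm]; exact Nat.mul_div_cancel_left _ hp0'
      simp only [if_neg h1, if_pos d3, if_neg d1, a3, Nat.mul_div_cancel_left _ hp0']
      rw [show (ℓ' : ℕ) * ((ℓ : ℕ) * ((ℓ' : ℕ) * k)) = (ℓ : ℕ) * ((ℓ' : ℕ) * ((ℓ' : ℕ) * k)) by ring]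
      split_ifs <;> ring
    · simp only [if_neg h1, if_neg h2]
      rw [show (ℓ' : ℕ) * ((ℓ : ℕ) * n) = (ℓ : ℕ) * ((ℓ' : ℕ) * n) by ring]
      split_ifs <;> ring

end Primes

end Fermat.Agent.TwES
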