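import Fermat.Agent.TwES.Conj
import Fermat.Agent.TwES.Boundary
import Fermat.Agent.S16.Lift

/-!
# Equivariant primitives: the twisted Eichler–Shimura isomorphism
-/

set_option autoImplicit false

noncomputable section

open UpperHalfPlane Filter Topology Complex Function CongruenceSubgroup ModularFormClass
open scoped MatrixGroups Manifold ModularForm Real ComplexConjugate

namespace Fermat.Agent.TwES

open GenES TwHecke HeckePar Fermat.Agent.S21per ModularCurve.Period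
open TwHecke (chr wt hu unitOf aMap)

variable {M : ℕ}

/-! ### The kernel of the character -/

/-- the kernel of the character. -/
def kerG (ε : (ZMod M)ˣ →* ℂˣ) : Subgroup SL(2, ℤ) := (chr M ε).ker.map (Gamma0 M).subtype

variable {ε : (ZMod M)ˣ →* ℂˣ}

theorem mem_kerG {γ : SL(2, ℤ)} : γ ∈ kerG ε ↔ ∃ h : γ ∈ Gamma0 M, chr M ε ⟨γ, h⟩ = 1 := by
  constructor
  · rintro ⟨γ, hγ, rfl⟩
    exact ⟨γ.2, hγ⟩
  · rintro ⟨h, h'⟩
    exact ⟨⟨γ, h⟩, h', rfl⟩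

theorem kerG_le : kerG ε ≤ Gamma0 M := fun _ h => (mem_kerG.mp h).1

theorem chr_of_mem_kerG {γ : SL(2, ℤ)} (h : γ ∈ kerG ε) : chr M ε ⟨γ, kerG_le h⟩ = 1 :=
  (mem_kerG.mp h).2

theorem Gamma1_le_kerG (ε : (ZMod M)ˣ →* ℂˣ) : Gamma1 M ≤ kerG ε := fun γ h =>
  mem_kerG.mpr ⟨Gamma1_le_Gamma0 M h, by
    rw [MonoidHom.comp_apply, aMap_of_Gamma1 h, map_one]⟩

theorem neg_one_mem_kerG (hε : ε (-1) = 1) : (-1 : SL(2, ℤ)) ∈ kerG ε := by
  have h0 : (-1 : SL(2, ℤ)) ∈ Gamma0 M := by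
    rw [Gamma0_mem]; simp
  refine mem_kerG.mpr ⟨h0, ?_⟩
  rw [MonoidHom.comp_apply, ← hε]
  congr 1
  apply Units.ext
  rw [TwHecke.val_aMap]
  simp

instance finiteIndex_kerG [NeZero M] : (kerG ε).FiniteIndex :=
  finiteIndex_of_Gamma1_le (Gamma1_le_kerG ε)

theorem conj_mem_kerG {δ γ : SL(2, ℤ)} (hδ : δ ∈ Gamma0 M) (hγ : γ ∈ kerG ε) :
    δ * γ * δ⁻¹ ∈ kerG ε := by
  obtain ⟨h, h'⟩ := mem_kerG.mp hγ
  refine mem_kerG.mpr ⟨mul_mem (mul_mem hδ h) (inv_mem hδ), ?_⟩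
  have h1 : (⟨δ * γ * δ⁻¹, mul_mem (mul_mem hδ h) (inv_mem hδ)⟩ : Gamma0 M) =
    ⟨δ, hδ⟩ * ⟨γ, h⟩ * (⟨δ, hδ⟩ : Gamma0 M)⁻¹ := rfl
  rw [h1, map_mul, map_mul, h', mul_one, map_inv, mul_inv_cancel]

/-! ### Restriction of cocycles -/

/-- restriction of a cocycle to the kernel of the character. -/
def resK (c : ZM M ε ℂ) : Additive (kerG ε) →+ ℂ where
  toFun γ := c ⟨(Additive.toMul γ : kerG ε), kerG_le (Additive.toMul γ).2⟩
  map_zero' := Z1.apply_one c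
  map_add' a b := by
    have h1 := Z1.apply_mul c ⟨(Additive.toMul a : kerG ε), kerG_le (Additive.toMul a).2⟩
      ⟨(Additive.toMul b : kerG ε), kerG_le (Additive.toMul b).2⟩
    rw [chr_of_mem_kerG (Additive.toMul a).2, Units.val_one, one_smul] at h1
    exact h1

theorem resK_apply (c : ZM M ε ℂ) (γ : kerG ε) :
    resK c (Additive.ofMul γ) = c ⟨γ, kerG_le γ.2⟩ := rfl

theorem Z1_zpow_eq_zero {Γ : Type*} [Group Γ] {R : Type*} [CommRing R] {e : Γ →* Rˣ} {A : Type*}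
    [AddCommGroup A] [Module R A] (c : Z1 e A) {g : Γ} (hg : e g = 1) (hc : c g = 0) (n : ℤ) :
    c (g ^ n) = 0 := by
  cases n with
  | ofNat n => rw [Int.ofNat_eq_natCast, zpow_natCast, Z1_apply_pow c hg, hc, smul_zero]
  | negSucc n =>
    rw [zpow_negSucc, Z1.apply_inv, Z1_apply_pow c hg, hc, smul_zero, smul_zero, neg_zero]

theorem resK_mem [NeZero M] {c : ZM M ε ℂ} (hc : ∀ σ, c (upar M σ) = 0) :
    resK c ∈ parabolicHoms ℂ (kerG ε) ℂ := by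
  rw [mem_parabolicHoms_iff]
  intro γ hγ
  obtain ⟨δ, m, hδ⟩ := Fermat.Agent.S16.exists_conj_T_zpow (γ : SL(2, ℤ)) hγ
  set g : Gamma0 M := ⟨γ, kerG_le γ.2⟩ with hg
  have hε : chr M ε g = 1 := chr_of_mem_kerG γ.2
  have h1 : g ^ (2 * M) = (upar M δ) ^ (2 * m) := by
    apply Subtype.ext
    rw [Subgroup.coe_pow, Subgroup.coe_zpow]
    show (γ : SL(2, ℤ)) ^ (2 * M) = (δ * ModularGroup.T ^ M * δ⁻¹) ^ (2 * m)
    have h2 : (γ : SL(2, ℤ)) ^ (2 * M) = (δ * ModularGroup.T ^ m * δ⁻¹) ^ (2 * M) := by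
      rcases hδ with h | h
      · rw [h]
      · rw [h, pow_mul, neg_sq, ← pow_mul]
    rw [h2, conj_pow, conj_zpow, ← zpow_natCast, ← zpow_natCast, ← zpow_mul, ← zpow_mul]
    congr 3
    push_cast
    ring
  have h3 : c (g ^ (2 * M)) = 0 := by
    rw [h1]
    exact Z1_zpow_eq_zero c (chr_upar M ε δ) (hc δ) _
  rw [Z1_apply_pow c hε, smul_eq_mul] at h3
  show c g = 0
  refine (mul_eq_zero.mp h3).resolve_left ?_
  have hM : (M : ℂ) ≠ 0 := by exact_mod_cast NeZero.ne M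
  push_cast
  exact mul_ne_zero two_ne_zero hM

/-! ### Slashing forms for the kernel -/

lemma isRat_SL (δ : SL(2, ℤ)) : IsRat (δ : GL (Fin 2) ℝ) :=
  isRat_of_int (A := (δ : Matrix (Fin 2) (Fin 2) ℤ)) (val_mapGL δ)

section

variable [NeZero M]

/-- the slash of a form for the kernel by an element of `Γ₀(M)`. -/
def slashForm (f : CuspForm (kerG ε : Subgroup (GL (Fin 2) ℝ)) 2) (δ : Gamma0 M) :
    CuspForm (kerG ε : Subgroup (GL (Fin 2) ℝ)) 2 :=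
  ((QCusp.of_form f).slash (isRat_SL (δ : SL(2, ℤ)))).toForm fun γ hγ => by
    have h1 : (γ : SL(2, ℤ)) = (δ : SL(2, ℤ))⁻¹ * ((δ : SL(2, ℤ)) * γ * (δ : SL(2, ℤ))⁻¹) *
      (δ : SL(2, ℤ)) := by group
    rw [← ModularForm.SL_slash, ← SlashAction.slash_mul]
    rw [show (δ : SL(2, ℤ)) * γ = ((δ : SL(2, ℤ)) * γ * (δ : SL(2, ℤ))⁻¹) * (δ : SL(2, ℤ)) by group,
      SlashAction.slash_mul, GenES.slash_of_form f (conj_mem_kerG δ.2 hγ)]

theorem coe_slashForm (f : CuspForm (kerG ε : Subgroup (GL (Fin 2) ℝ)) 2) (δ : Gamma0 M) :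
    ((slashForm f δ : CuspForm (kerG ε : Subgroup (GL (Fin 2) ℝ)) 2) : ℍ → ℂ) =
      (f : ℍ → ℂ) ∣[(2 : ℤ)] (δ : SL(2, ℤ)) := rfl

theorem per_slashForm (f : CuspForm (kerG ε : Subgroup (GL (Fin 2) ℝ)) 2) (δ : Gamma0 M)
    (γ : kerG ε) : per (slashForm f δ) (Additive.ofMul γ) =
      per f (Additive.ofMul ⟨(δ : SL(2, ℤ)) * γ * (δ : SL(2, ℤ))⁻¹, conj_mem_kerG δ.2 γ.2⟩) := by
  obtain ⟨F, hF⟩ := exists_gprim f
  obtain ⟨L, hL⟩ := hF.cusp (δ : SL(2, ℤ))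
  have h1 : GPrim (slashForm f δ) (fun w => F ((δ : SL(2, ℤ)) • w) - L) := by
    refine ⟨?_, ?_⟩
    · have h2 := hF.prim.smul (δ : SL(2, ℤ))
      intro τ
      have h3 := (h2 τ).sub_const L
      exact h3
    · have := hL.sub_const L
      rwa [sub_self] at this
  rw [h1.per_apply γ UpperHalfPlane.I,
    hF.per_apply ⟨(δ : SL(2, ℤ)) * γ * (δ : SL(2, ℤ))⁻¹, conj_mem_kerG δ.2 γ.2⟩
      ((δ : SL(2, ℤ)) • UpperHalfPlane.I)]
  have h4 : ((δ : SL(2, ℤ)) * γ * (δ : SL(2, ℤ))⁻¹) • (δ : SL(2, ℤ)) • UpperHalfPlane.I =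
      (δ : SL(2, ℤ)) • (γ : SL(2, ℤ)) • UpperHalfPlane.I := by
    rw [← mul_smul, ← mul_smul, inv_mul_cancel_right]
  show F ((δ : SL(2, ℤ)) • (γ : SL(2, ℤ)) • UpperHalfPlane.I) - L -
    (F ((δ : SL(2, ℤ)) • UpperHalfPlane.I) - L) = _
  show _ = F (((δ : SL(2, ℤ)) * γ * (δ : SL(2, ℤ))⁻¹) • (δ : SL(2, ℤ)) • UpperHalfPlane.I) - _
  rw [h4]
  ring

theorem per_sub (f g : CuspForm (kerG ε : Subgroup (GL (Fin 2) ℝ)) 2) (γ : Additive (kerG ε)) :
    per (f - g) γ = per f γ - per g γ := by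
  have := DFunLike.congr_fun ((perLin (kerG ε)).map_sub f g) γ
  exact this

theorem per_smul (a : ℂ) (f : CuspForm (kerG ε : Subgroup (GL (Fin 2) ℝ)) 2)
    (γ : Additive (kerG ε)) : per (a • f) γ = a * per f γ := by
  have := DFunLike.congr_fun ((perLin (kerG ε)).map_smul a f) γ
  exact this

/-- the two components of the period representation are eigenvectors for `Γ₀(M)`. -/
theorem slash_of_resK {c : ZM M ε ℂ} {f g : CuspForm (kerG ε : Subgroup (GL (Fin 2) ℝ)) 2}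
    (h : resK c = per f + conjHom (per g)) (δ : Gamma0 M) :
    (f : ℍ → ℂ) ∣[(2 : ℤ)] (δ : SL(2, ℤ)) = (chr M ε δ : ℂ) • (f : ℍ → ℂ) ∧
    (g : ℍ → ℂ) ∣[(2 : ℤ)] (δ : SL(2, ℤ)) = (chr M (epsBar ε) δ : ℂ) • (g : ℍ → ℂ) := by
  have hval : ((chr M (epsBar ε) δ : ℂˣ) : ℂ) = conj ((chr M ε δ : ℂˣ) : ℂ) := rfl
  have key := per_add_conj_per_injective (f := slashForm f δ - (chr M ε δ : ℂ) • f)
    (g := slashForm g δ - (chr M (epsBar ε) δ : ℂ) • g) (fun γ => by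
      rw [per_sub, per_sub, per_smul, per_smul, per_slashForm, per_slashForm, map_sub, map_mul,
        hval, Complex.conj_conj]
      have h1 := DFunLike.congr_fun h (Additive.ofMul γ)
      have h2 := DFunLike.congr_fun h (Additive.ofMul
        ⟨(δ : SL(2, ℤ)) * γ * (δ : SL(2, ℤ))⁻¹, conj_mem_kerG δ.2 γ.2⟩)
      rw [AddMonoidHom.add_apply, GenES.conjHom_apply] at h1 h2
      have h3 : c ⟨(δ : SL(2, ℤ)) * γ * (δ : SL(2, ℤ))⁻¹, kerG_le (conj_mem_kerG δ.2 γ.2)⟩ =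
          (chr M ε δ : ℂ) * c ⟨γ, kerG_le γ.2⟩ := by
        have h4 : (⟨(δ : SL(2, ℤ)) * γ * (δ : SL(2, ℤ))⁻¹,
          kerG_le (conj_mem_kerG δ.2 γ.2)⟩ : Gamma0 M) = δ * ⟨γ, kerG_le γ.2⟩ * δ⁻¹ := rfl
        rw [h4, Z1.apply_mul, Z1.apply_mul, Z1.apply_inv, map_mul, chr_of_mem_kerG γ.2, mul_one,
          smul_neg, smul_smul, ← Units.val_mul, mul_inv_cancel, Units.val_one, one_smul,
          smul_eq_mul]
        ring
      rw [resK_apply] at h1 h2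
      rw [h3, h1] at h2
      linear_combination -h2)
  refine ⟨?_, ?_⟩
  · have := congrArg (fun F : CuspForm (kerG ε : Subgroup (GL (Fin 2) ℝ)) 2 => (F : ℍ → ℂ))
      (sub_eq_zero.mp key.1)
    exact this
  · have := congrArg (fun F : CuspForm (kerG ε : Subgroup (GL (Fin 2) ℝ)) 2 => (F : ℍ → ℂ))
      (sub_eq_zero.mp key.2)
    exact this

end

/-! ### Equivariant primitives -/

/-- `F + conj G` is an equivariant primitive with cocycle `c`. -/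
structure EqPrim (c : ZM M ε ℂ) (f : NF ε) (g : NF (epsBar ε)) (F G : ℍ → ℂ) : Prop where
  primF : IsPrim (f : ℍ → ℂ) F
  primG : IsPrim (g : ℍ → ℂ) G
  eqv : ∀ (γ : Gamma0 M) (z : ℍ), F ((γ : SL(2, ℤ)) • z) + conj (G ((γ : SL(2, ℤ)) • z)) =
    (chr M ε γ : ℂ) * (F z + conj (G z)) + c γ

/-- **Existence of equivariant primitives** for parabolic cocycles. -/
theorem exists_eqPrim [NeZero M] (hε : ε (-1) = 1) {c : ZM M ε ℂ} (hc : ∀ σ, c (upar M σ) = 0) :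
    ∃ (f : NF ε) (g : NF (epsBar ε)) (F G : ℍ → ℂ), EqPrim c f g F G := by
  obtain ⟨f, g, hfg⟩ := exists_eq_per_add_conj (Gamma1_le_kerG ε) (neg_one_mem_kerG hε)
    (resK_mem hc)
  have hsl := slash_of_resK hfg
  let f' : NF ε := ⟨f, QCusp.of_form f, fun δ => (hsl δ).1⟩
  let g' : NF (epsBar ε) := ⟨g, QCusp.of_form g, fun δ => (hsl δ).2⟩
  obtain ⟨F, hF⟩ := exists_gprim f
  obtain ⟨G, hG⟩ := exists_gprim g
  -- the defect is constant
  have hconstF : ∀ (δ : Gamma0 M) (z w : ℍ), F ((δ : SL(2, ℤ)) • z) - (chr M ε δ : ℂ) * F z =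
      F ((δ : SL(2, ℤ)) • w) - (chr M ε δ : ℂ) * F w := by
    intro δ z w
    have h1 := hF.prim.smul (δ : SL(2, ℤ))
    rw [(hsl δ).1] at h1
    have h2 := h1.sub_eq_sub (hF.prim.const_smul (chr M ε δ : ℂ)) z w
    exact h2
  have hconstG : ∀ (δ : Gamma0 M) (z w : ℍ), G ((δ : SL(2, ℤ)) • z) -
      (chr M (epsBar ε) δ : ℂ) * G z =
      G ((δ : SL(2, ℤ)) • w) - (chr M (epsBar ε) δ : ℂ) * G w := by
    intro δ z w
    have h1 := hG.prim.smul (δ : SL(2, ℤ))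
    rw [(hsl δ).2] at h1
    have h2 := h1.sub_eq_sub (hG.prim.const_smul (chr M (epsBar ε) δ : ℂ)) z w
    exact h2
  have hval : ∀ δ : Gamma0 M, ((chr M (epsBar ε) δ : ℂˣ) : ℂ) = conj ((chr M ε δ : ℂˣ) : ℂ) :=
    fun _ => rfl
  -- the function `Ψ` and its cocycle
  set Ψ : ℍ → ℂ := fun z => F z + conj (G z) with hΨ
  have hconst : ∀ (δ : Gamma0 M) (z w : ℍ), Ψ ((δ : SL(2, ℤ)) • z) - (chr M ε δ : ℂ) * Ψ z =
      Ψ ((δ : SL(2, ℤ)) • w) - (chr M ε δ : ℂ) * Ψ w := by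
    intro δ z w
    have h1 := hconstF δ z w
    have h2 := congrArg conj (hconstG δ z w)
    rw [map_sub, map_sub, map_mul, map_mul, hval, Complex.conj_conj] at h2
    simp only [hΨ]
    linear_combination h1 + h2
  let c' : ZM M ε ℂ := ⟨fun δ => Ψ ((δ : SL(2, ℤ)) • UpperHalfPlane.I) -
    (chr M ε δ : ℂ) * Ψ UpperHalfPlane.I, by
      intro g h
      show Ψ (((g * h : Gamma0 M) : SL(2, ℤ)) • UpperHalfPlane.I) -
        (chr M ε (g * h) : ℂ) * Ψ UpperHalfPlane.I = _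
      have h1 := hconst g ((h : SL(2, ℤ)) • UpperHalfPlane.I) UpperHalfPlane.I
      rw [Subgroup.coe_mul, mul_smul, map_mul, Units.val_mul, smul_eq_mul]
      linear_combination h1⟩
  have hc' : ∀ (δ : Gamma0 M) (z : ℍ), Ψ ((δ : SL(2, ℤ)) • z) = (chr M ε δ : ℂ) * Ψ z + c' δ := by
    intro δ z
    have h1 := hconst δ z UpperHalfPlane.I
    have h2 : c' δ = Ψ ((δ : SL(2, ℤ)) • UpperHalfPlane.I) -
      (chr M ε δ : ℂ) * Ψ UpperHalfPlane.I := rfl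
    rw [h2]
    linear_combination h1
  -- the difference vanishes on the kernel
  set d : ZM M ε ℂ := c - c' with hd
  have hd0 : ∀ γ : Gamma0 M, chr M ε γ = 1 → d γ = 0 := by
    intro γ hγ
    have hmem : (γ : SL(2, ℤ)) ∈ kerG ε := mem_kerG.mpr ⟨γ.2, hγ⟩
    have h1 := DFunLike.congr_fun hfg (Additive.ofMul ⟨γ, hmem⟩)
    rw [AddMonoidHom.add_apply, GenES.conjHom_apply, resK_apply,
      hF.per_apply _ UpperHalfPlane.I, hG.per_apply _ UpperHalfPlane.I] at h1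
    have h2 := hc' γ UpperHalfPlane.I
    rw [hγ, Units.val_one, one_mul] at h2
    simp only [hΨ] at h2
    rw [map_sub] at h1
    show c γ - c' γ = 0
    have h3 : c ⟨(γ : SL(2, ℤ)), kerG_le hmem⟩ = c γ := rfl
    rw [h3] at h1
    change F ((γ : SL(2, ℤ)) • UpperHalfPlane.I) + conj (G ((γ : SL(2, ℤ)) • UpperHalfPlane.I)) =
      _ at h2
    change c γ = F ((γ : SL(2, ℤ)) • UpperHalfPlane.I) - F UpperHalfPlane.I +
      (conj (G ((γ : SL(2, ℤ)) • UpperHalfPlane.I)) - conj (G UpperHalfPlane.I)) at h1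
    linear_combination h1 + h2
  -- so it is a coboundary
  obtain ⟨b, hb⟩ : ∃ b : ℂ, ∀ γ, d γ = (chr M ε γ : ℂ) * b - b := by
    by_cases htriv : ∀ γ : Gamma0 M, chr M ε γ = 1
    · exact ⟨0, fun γ => by rw [hd0 γ (htriv γ)]; ring⟩
    · push Not at htriv
      obtain ⟨δ, hδ⟩ := htriv
      have hδ' : ((chr M ε δ : ℂˣ) : ℂ) - 1 ≠ 0 := by
        rw [sub_ne_zero]
        intro h
        exact hδ (Units.ext h)
      refine ⟨d δ / (((chr M ε δ : ℂˣ) : ℂ) - 1), fun γ => ?_⟩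
      have h1 : d (δ * γ) = d (γ * δ) := by
        have h2 : δ * γ = (δ * γ * δ⁻¹ * γ⁻¹) * (γ * δ) := by group
        have h3 : chr M ε (δ * γ * δ⁻¹ * γ⁻¹) = 1 := by
          rw [map_mul, map_mul, map_mul, map_inv, map_inv, mul_inv_cancel_comm, mul_inv_cancel]
        rw [h2, Z1.apply_mul, hd0 _ h3, h3, Units.val_one, one_smul, zero_add]
      rw [Z1.apply_mul, Z1.apply_mul, smul_eq_mul, smul_eq_mul] at h1
      field_simp
      linear_combination h1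
  refine ⟨f', g', fun z => F z - b, G, ?_, hG.prim, ?_⟩
  · intro τ
    exact (hF.prim τ).sub_const b
  · intro γ z
    have h1 := hc' γ z
    have h2 := hb γ
    have h3 : d γ = c γ - c' γ := rfl
    rw [h3] at h2
    simp only [hΨ] at h1
    linear_combination h1 - h2

end Fermat.Agent.TwES
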