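import Fermat.Agent.TwES.Prim

/-!
# Hecke operators and equivariant primitives
-/

set_option autoImplicit false

noncomputable section

open UpperHalfPlane Filter Topology Complex Function CongruenceSubgroup ModularFormClass
open scoped MatrixGroups Manifold ModularForm Real ComplexConjugate

namespace Fermat.Agent.TwES

open GenES TwHecke HeckePar Fermat.Agent.S21per ModularCurve.Period
open TwHecke (chr wt hu unitOf aMap)

variable {M : ℕ} {ε : (ZMod M)ˣ →* ℂˣ}

/-- The derivative of `w ↦ F (α • w)` is the weight two slash of the derivative of `F`. -/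
lemma IsPrim_smul_GL {f F : ℍ → ℂ} (hF : IsPrim f F) {α : GL (Fin 2) ℝ} (hα : 0 < α.det.val) :
    IsPrim (f ∣[(2 : ℤ)] α) (fun w ↦ F (α • w)) := by
  intro τ
  have hdet : (0 : ℝ) < α.val.det := by
    rw [← Matrix.GeneralLinearGroup.val_det_apply]; exact hα
  have h1 : HasDerivAt (fun w ↦ (α • ofComplex w : ℍ) : ℂ → ℂ)
      ((α.val.det : ℂ) / denom α τ ^ 2) (τ : ℂ) :=
    (hasStrictDerivAt_smul hdet τ).hasDerivAt
  have h2 : HasDerivAt (F ∘ ofComplex) (f (α • τ)) ((α • ofComplex (τ : ℂ) : ℍ) : ℂ) := by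
    rw [ofComplex_apply]; exact hF (α • τ)
  have h3 := h2.comp (τ : ℂ) h1
  have h4 : (F ∘ ofComplex) ∘ (fun w : ℂ ↦ ((α • ofComplex w : ℍ) : ℂ)) =
      (fun w ↦ F (α • w)) ∘ ofComplex := by
    ext w
    simp only [Function.comp_apply, ofComplex_apply]
  rw [h4] at h3
  refine h3.congr_deriv ?_
  rw [ModularForm.slash_apply, UpperHalfPlane.σ, if_pos hα]
  simp only [ContinuousAlgEquiv.refl_apply]
  rw [Matrix.GeneralLinearGroup.val_det_apply, abs_of_pos hdet]
  rw [show (2 : ℤ) - 1 = 1 from rfl, zpow_one, zpow_neg, div_eq_mul_inv]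
  norm_cast
  ring

lemma IsPrim_sum {ι : Type*} (s : Finset ι) {f F : ι → ℍ → ℂ} (h : ∀ i ∈ s, IsPrim (f i) (F i)) :
    IsPrim (∑ i ∈ s, f i) (∑ i ∈ s, F i) := by
  classical
  induction s using Finset.induction_on with
  | empty =>
    intro τ
    rw [Finset.sum_empty, Finset.sum_empty]
    exact hasDerivAt_const _ _
  | insert a s ha ih =>
    rw [Finset.sum_insert ha, Finset.sum_insert ha]
    exact (h a (Finset.mem_insert_self a s)).add
      (ih fun i hi => h i (Finset.mem_insert_of_mem hi))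

section

variable (p : ℕ) [hp : Fact p.Prime]

/-- Hecke operator on primitives. -/
def tPrim (ε : (ZMod M)ˣ →* ℂˣ) (F : ℍ → ℂ) : ℍ → ℂ :=
  ∑ x : HIdx M p, wt ε (hu M p x) • (fun z => F (hrep p x.1 • z))

theorem tPrim_apply (F : ℍ → ℂ) (z : ℍ) :
    tPrim p ε F z = ∑ x : HIdx M p, wt ε (hu M p x) * F (hrep p x.1 • z) := by
  rw [tPrim, Finset.sum_apply]
  rfl

theorem isPrim_tPrim {f : NF ε} {F : ℍ → ℂ} (h : IsPrim (f : ℍ → ℂ) F) :
    IsPrim ((tF p ε f : NF ε) : ℍ → ℂ) (tPrim p ε F) :=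
  IsPrim_sum _ fun x _ => (IsPrim_smul_GL h (det_hrep_pos p x.1)).const_smul _

variable {c : ZM M ε ℂ} {f : NF ε} {g : NF (epsBar ε)} {F G : ℍ → ℂ}

/-- Hecke operators on equivariant primitives. -/
theorem EqPrim.hecke (h : EqPrim c f g F G) :
    EqPrim (heckeZ M p ε ℂ c) (tF p ε f) (tF p (epsBar ε) g) (tPrim p ε F)
      (tPrim p (epsBar ε) G) where
  primF := isPrim_tPrim p h.primF
  primG := isPrim_tPrim p h.primG
  eqv γ z := by
    have h0 : ∀ w : ℍ, tPrim p ε F w + conj (tPrim p (epsBar ε) G w) =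
        ∑ x : HIdx M p, wt ε (hu M p x) * (F (hrep p x.1 • w) + conj (G (hrep p x.1 • w))) := by
      intro w
      rw [tPrim_apply, tPrim_apply, map_sum, ← Finset.sum_add_distrib]
      refine Finset.sum_congr rfl fun x _ => ?_
      rw [map_mul, wt_epsBar, Complex.conj_conj, mul_add]
    rw [h0, h0, heckeZ_apply]
    have h1 : ∀ x : HIdx M p, wt ε (hu M p x) *
        (F (hrep p x.1 • (γ : SL(2, ℤ)) • z) + conj (G (hrep p x.1 • (γ : SL(2, ℤ)) • z))) =
        ((chr M ε γ : ℂ) * wt ε (hu M p ((heckeCorr M p).act γ x))) *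
          (F (hrep p ((heckeCorr M p).act γ x).1 • z) +
            conj (G (hrep p ((heckeCorr M p).act γ x).1 • z))) +
          wt ε (hu M p x) • c ((heckeSys M p).coc γ x) := by
      intro x
      have h2 : hrep p x.1 • (γ : SL(2, ℤ)) • z = ((heckeCorr M p).coc γ x : SL(2, ℤ)) •
          hrep p ((heckeCorr M p).act γ x).1 • z := by
        have h3 : hrep p x.1 * ((γ : SL(2, ℤ)) : GL (Fin 2) ℝ) =
          (((heckeCorr M p).coc γ x : SL(2, ℤ)) : GL (Fin 2) ℝ) *
          hrep p ((heckeCorr M p).act γ x).1 := (heckeSys M p).spec γ x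
        have h4 := congrArg (fun α : GL (Fin 2) ℝ => α • z) h3
        simp only [mul_smul] at h4
        exact h4
      rw [h2, h.eqv]
      have h5 : wt ε (hu M p x) * (chr M ε ((heckeCorr M p).coc γ x) : ℂ) =
        (chr M ε γ : ℂ) * wt ε (hu M p ((heckeCorr M p).act γ x)) := hecke_isWeight M p ε γ x
      rw [← h5, smul_eq_mul]
      have h6 : (heckeCorr M p).coc γ x = (heckeSys M p).coc γ x := rfl
      rw [h6]
      ring
    rw [Finset.sum_congr rfl fun x _ => h1 x, Finset.sum_add_distrib, Finset.mul_sum]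
    congr 1
    refine (Equiv.sum_comp ((heckeCorr M p).perm γ)
      (fun x => ((chr M ε γ : ℂ) * wt ε (hu M p x)) *
        (F (hrep p x.1 • z) + conj (G (hrep p x.1 • z))))).trans ?_
    refine Finset.sum_congr rfl fun x _ => ?_
    ring

end

section

variable {c c' : ZM M ε ℂ} {f f' : NF ε} {g g' : NF (epsBar ε)} {F G F' G' : ℍ → ℂ}

theorem EqPrim.add (h : EqPrim c f g F G) (h' : EqPrim c' f' g' F' G') :
    EqPrim (c + c') (f + f') (g + g') (F + F') (G + G') where
  primF := h.primF.add h'.primF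
  primG := h.primG.add h'.primG
  eqv γ z := by
    have h1 := h.eqv γ z
    have h2 := h'.eqv γ z
    simp only [Pi.add_apply, map_add, Z1.add_apply]
    linear_combination h1 + h2

theorem EqPrim.smul (a : ℂ) (h : EqPrim c f g F G) :
    EqPrim (a • c) (a • f) (conj a • g) (a • F) (conj a • G) where
  primF := h.primF.const_smul a
  primG := h.primG.const_smul (conj a)
  eqv γ z := by
    have h1 := h.eqv γ z
    simp only [Pi.smul_apply, smul_eq_mul, map_mul, Complex.conj_conj, Z1.smul_apply]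
    linear_combination a * h1

theorem EqPrim.sub (h : EqPrim c f g F G) (h' : EqPrim c' f' g' F' G') :
    EqPrim (c - c') (f - f') (g - g') (F - F') (G - G') := by
  have := h.add (h'.smul (-1))
  rw [map_neg, map_one, neg_one_smul ℂ c', neg_one_smul ℂ f', neg_one_smul ℂ g',
    neg_one_smul ℂ F', neg_one_smul ℂ G', ← sub_eq_add_neg c c', ← sub_eq_add_neg f f',
    ← sub_eq_add_neg g g', ← sub_eq_add_neg F F', ← sub_eq_add_neg G G'] at this
  exact this

theorem EqPrim.cobd (a : ℂ) :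
    EqPrim (TwHecke.cobd (chr M ε) ℂ a) (0 : NF ε) (0 : NF (epsBar ε)) (fun _ => -a)
      (fun _ => 0) where
  primF := fun τ => hasDerivAt_const _ _
  primG := fun τ => hasDerivAt_const _ _
  eqv γ z := by
    simp only [cobd_apply, smul_eq_mul, map_zero]
    ring

theorem EqPrim.zero : EqPrim (0 : ZM M ε ℂ) (0 : NF ε) (0 : NF (epsBar ε)) 0 0 where
  primF := fun τ => hasDerivAt_const _ _
  primG := fun τ => hasDerivAt_const _ _
  eqv γ z := by simp

theorem isPrim_zero_const {F : ℍ → ℂ} (h : IsPrim 0 F) : F = fun _ => F UpperHalfPlane.I := by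
  funext z
  have h0 : IsPrim (0 : ℍ → ℂ) (fun _ => (0 : ℂ)) := fun τ => hasDerivAt_const _ _
  have := h.sub_eq_sub h0 z UpperHalfPlane.I
  simpa using this

/-- A cocycle with vanishing forms is a coboundary. -/
theorem EqPrim.eq_zero_of_forms (h : EqPrim c (0 : NF ε) (0 : NF (epsBar ε)) F G) :
    (H1.mk c : HM M ε ℂ) = 0 := by
  have hF := isPrim_zero_const (F := F) h.primF
  have hG := isPrim_zero_const (F := G) h.primG
  rw [H1.mk_eq_zero]
  refine ⟨-(F UpperHalfPlane.I + conj (G UpperHalfPlane.I)), ?_⟩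
  ext γ
  have h1 := h.eqv γ UpperHalfPlane.I
  rw [hF, hG] at h1
  simp only at h1
  rw [cobd_apply, smul_eq_mul]
  linear_combination h1

theorem epsBar_kerG (γ : Gamma0 M) (h : chr M ε γ = 1) : chr M (epsBar ε) γ = 1 := by
  apply Units.ext
  show conj ((chr M ε γ : ℂˣ) : ℂ) = 1
  rw [h, Units.val_one, map_one]

/-- a nebentypus form as a form for the kernel. -/
def toK [NeZero M] (f : NF ε) : CuspForm (kerG ε : Subgroup (GL (Fin 2) ℝ)) 2 :=
  (NF.qcusp f).toForm fun γ hγ => by
    have := NF.slash f ⟨γ, kerG_le hγ⟩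
    rw [chr_of_mem_kerG hγ, Units.val_one, one_smul] at this
    exact this

/-- a nebentypus form as a form for the kernel (conjugate character). -/
def toK' [NeZero M] (f : NF (epsBar ε)) : CuspForm (kerG ε : Subgroup (GL (Fin 2) ℝ)) 2 :=
  (NF.qcusp f).toForm fun γ hγ => by
    have := NF.slash f ⟨γ, kerG_le hγ⟩
    rw [epsBar_kerG _ (chr_of_mem_kerG hγ), Units.val_one, one_smul] at this
    exact this

/-- **Uniqueness**: the forms attached to a trivial class vanish. -/
theorem EqPrim.forms_eq_zero [NeZero M] (h : EqPrim c f g F G) (hc : (H1.mk c : HM M ε ℂ) = 0) :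
    f = 0 ∧ g = 0 := by
  obtain ⟨a, ha⟩ := H1.mk_eq_zero.mp hc
  obtain ⟨F0, hF0⟩ := exists_gprim (toK f)
  obtain ⟨G0, hG0⟩ := exists_gprim (toK' g)
  have hF : ∀ z w, F z - F0 z = F w - F0 w := fun z w => h.primF.sub_eq_sub hF0.prim z w
  have hG : ∀ z w, G z - G0 z = G w - G0 w := fun z w => h.primG.sub_eq_sub hG0.prim z w
  have key := per_add_conj_per_injective (f := toK f) (g := toK' g) (fun γ => by
    rw [hF0.per_apply γ UpperHalfPlane.I, hG0.per_apply γ UpperHalfPlane.I]
    have h1 := h.eqv ⟨γ, kerG_le γ.2⟩ UpperHalfPlane.I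
    have h2 : c ⟨γ, kerG_le γ.2⟩ = 0 := by
      rw [← ha, cobd_apply, chr_of_mem_kerG γ.2, Units.val_one, one_smul, sub_self]
    rw [h2, chr_of_mem_kerG γ.2, Units.val_one, one_mul, add_zero] at h1
    have h3 := hF ((γ : SL(2, ℤ)) • UpperHalfPlane.I) UpperHalfPlane.I
    have h4 := congrArg conj (hG ((γ : SL(2, ℤ)) • UpperHalfPlane.I) UpperHalfPlane.I)
    rw [map_sub, map_sub] at h4
    rw [map_sub]
    change F ((γ : SL(2, ℤ)) • UpperHalfPlane.I) + conj (G ((γ : SL(2, ℤ)) • UpperHalfPlane.I)) =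
      _ at h1
    linear_combination h1 - h3 - h4)
  refine ⟨Subtype.ext ?_, Subtype.ext ?_⟩
  · exact congrArg (fun F : CuspForm (kerG ε : Subgroup (GL (Fin 2) ℝ)) 2 => (F : ℍ → ℂ)) key.1
  · exact congrArg (fun F : CuspForm (kerG ε : Subgroup (GL (Fin 2) ℝ)) 2 => (F : ℍ → ℂ)) key.2

/-- Uniqueness of the forms attached to a class. -/
theorem EqPrim.forms_unique [NeZero M] (h : EqPrim c f g F G) (h' : EqPrim c' f' g' F' G')
    (hc : (H1.mk c : HM M ε ℂ) = H1.mk c') : f = f' ∧ g = g' := by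
  have h1 := (h.sub h').forms_eq_zero (by rw [H1.mk_sub, hc, sub_self])
  exact ⟨sub_eq_zero.mp h1.1, sub_eq_zero.mp h1.2⟩

end

end Fermat.Agent.TwES
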