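import Fermat.Agent.TwES.PrimHecke
import Fermat.Agent.TwHecke.Degen

/-!
# Twisting away the nebentypus `ψ⁻²`, for `ψ` modulo a divisor of the level
-/

set_option autoImplicit false

noncomputable section

open UpperHalfPlane Filter Topology Complex Function CongruenceSubgroup ModularFormClass
open scoped MatrixGroups Manifold ModularForm Real ComplexConjugate ZMod

namespace Fermat.Agent.TwES

open GenES TwHecke HeckePar
open TwHecke (chr wt hu unitOf aMap infl)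
open FermatAgent.HeckeEigen (heckeOp)

variable {N M : ℕ} [NeZero N] [NeZero M] (hNM : N ∣ M) (ψ : (ZMod N)ˣ →* ℂˣ)

/-- the Dirichlet character attached to `ψ`. -/
abbrev dch (ψ : (ZMod N)ˣ →* ℂˣ) : DirichletCharacter ℂ N := MulChar.ofUnitHom ψ

omit [NeZero N] in
theorem dch_coe (u : (ZMod N)ˣ) : dch ψ (u : ZMod N) = ψ u := MulChar.ofUnitHom_coe ψ u

/-- The nebentypus character `ψ²` inflated to the level. -/
abbrev neb : (ZMod M)ˣ →* ℂˣ := infl hNM (ψ ^ 2)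

omit [NeZero N] [NeZero M] in
include hNM in
theorem sq_dvd : N ^ 2 ∣ N * M := by
  rw [sq]; exact Nat.mul_dvd_mul_left N hNM

omit [NeZero M] in
include hNM in
/-- The matrix identity behind the transformation law of twists. -/
theorem exists_tmat_mul' {γ : SL(2, ℤ)} (hγ : γ ∈ Gamma0 (N * M)) (u u' : ℤ)
    (hu : ((u' : ℤ) : ZMod N) = ((γ 1 1 : ℤ) : ZMod N) ^ 2 * (u : ℤ)) :
    ∃ γ' ∈ Gamma0 M, ((γ' 0 0 : ℤ) : ZMod N) = ((γ 0 0 : ℤ) : ZMod N) ∧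
      tmat N u * (Matrix.SpecialLinearGroup.mapGL ℝ γ) =
        (Matrix.SpecialLinearGroup.mapGL ℝ γ') * tmat N u' := by
  have h1 : γ ∈ Gamma0 (N ^ 2) := TwHecke.Gamma0_le (sq_dvd hNM) hγ
  obtain ⟨γ', hγ', -, hmul⟩ := exists_tmat_mul h1 u u' hu
  have hN : (N : ℤ) ≠ 0 := by exact_mod_cast NeZero.ne N
  have hNR : (N : ℝ) ≠ 0 := by exact_mod_cast NeZero.ne N
  have hval := congrArg (fun g : GL (Fin 2) ℝ => (g : Matrix (Fin 2) (Fin 2) ℝ)) hmul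
  simp only [Units.val_mul, val_tmat, val_mapGL] at hval
  have h10 := congrFun (congrFun hval 1) 0
  have h00 := congrFun (congrFun hval 0) 0
  simp only [Matrix.mul_apply, Fin.sum_univ_two, Matrix.map_apply, Matrix.of_apply,
    Matrix.cons_val', Matrix.cons_val_zero, Matrix.cons_val_one, Matrix.cons_val_fin_one,
    zero_mul, mul_zero, zero_add, add_zero] at h10 h00
  have e10 : γ' 1 0 = γ 1 0 := by
    have : ((γ' 1 0 : ℤ) : ℝ) = ((γ 1 0 : ℤ) : ℝ) := by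
      have h2 : (N : ℝ) * ((γ 1 0 : ℤ) : ℝ) = (N : ℝ) * ((γ' 1 0 : ℤ) : ℝ) := by
        rw [h10]; ring
      exact (mul_left_cancel₀ hNR h2).symm
    exact_mod_cast this
  obtain ⟨c0, hc0⟩ : ((N : ℤ) ^ 2) ∣ γ 1 0 := by
    rw [Gamma0_mem, ZMod.intCast_zmod_eq_zero_iff_dvd] at h1
    exact_mod_cast h1
  have e00 : γ' 0 0 = γ 0 0 + N * (u * c0) := by
    have h3 : (N : ℤ) * γ 0 0 + u * γ 1 0 = γ' 0 0 * N := by exact_mod_cast h00
    rw [hc0] at h3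
    apply mul_left_cancel₀ hN
    linear_combination -h3
  refine ⟨γ', ?_, ?_, hmul⟩
  · rw [Gamma0_mem, e10]
    have h4 : γ ∈ Gamma0 M := TwHecke.Gamma0_le (Dvd.intro_left N rfl) hγ
    exact h4
  · rw [e00]
    push_cast
    rw [ZMod.natCast_self]
    ring

omit [NeZero M] in
/-- Transformation law of the twist. -/
theorem addTwist_slash' (f : NF (neb hNM ψ)) {γ : SL(2, ℤ)} (hγ : γ ∈ Gamma0 (N * M)) :
    (addTwist (fun x => dch ψ x) (f : ℍ → ℂ)) ∣[(2 : ℤ)] γ =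
      addTwist (fun x => dch ψ x) (f : ℍ → ℂ) := by
  classical
  have hγ0 : γ ∈ Gamma0 N := TwHecke.Gamma0_le (Dvd.intro M rfl) hγ
  have had : ((γ 0 0 : ℤ) : ZMod N) * ((γ 1 1 : ℤ) : ZMod N) = 1 :=
    Fermat.Agent.X1.gamma0_00_mul_11 hγ0
  obtain ⟨d, hd⟩ : ∃ d : (ZMod N)ˣ, (d : ZMod N) = ((γ 1 1 : ℤ) : ZMod N) :=
    ⟨Units.mkOfMulEqOne _ _ (by rw [mul_comm]; exact had), rfl⟩
  have hψ0 : dch ψ (d : ZMod N) ≠ 0 := (d.isUnit.map (dch ψ)).ne_zero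
  have key : ∀ u : ZMod N, ((f : ℍ → ℂ) ∣[(2 : ℤ)] tmat N (u.val : ℤ)) ∣[(2 : ℤ)] γ =
      (dch ψ (d : ZMod N) ^ 2)⁻¹ •
        ((f : ℍ → ℂ) ∣[(2 : ℤ)] tmat N ((((d ^ 2 : (ZMod N)ˣ) : ZMod N) * u).val : ℤ)) := by
    intro u
    obtain ⟨γ', hγ', ha', hmul⟩ := exists_tmat_mul' hNM hγ (u.val : ℤ)
      ((((d ^ 2 : (ZMod N)ˣ) : ZMod N) * u).val : ℤ) (by
        rw [Int.cast_natCast, Int.cast_natCast, ZMod.natCast_zmod_val, ZMod.natCast_zmod_val, ← hd,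
          Units.val_pow_eq_pow_val])
    have h1 : (f : ℍ → ℂ) ∣[(2 : ℤ)] γ' = (dch ψ (d : ZMod N) ^ 2)⁻¹ • (f : ℍ → ℂ) := by
      rw [NF.slash f ⟨γ', hγ'⟩]
      congr 1
      have h5 : ZMod.unitsMap hNM (aMap M ⟨γ', hγ'⟩) = d⁻¹ := by
        rw [eq_inv_iff_mul_eq_one]
        apply Units.ext
        rw [Units.val_mul, hd, Units.val_one, ← had]
        congr 1
        have h6 := TwHecke.val_aMap' hNM ⟨γ', hγ'⟩
        rw [← ha']
        exact h6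
      show ((((ψ ^ 2) (ZMod.unitsMap hNM (aMap M ⟨γ', hγ'⟩)) : ℂˣ)) : ℂ) = _
      rw [h5, dch_coe, MonoidHom.pow_apply, map_inv, inv_pow, Units.val_inv_eq_inv_val,
        Units.val_pow_eq_pow_val]
    rw [ModularForm.SL_slash, ← SlashAction.slash_mul]
    change (f : ℍ → ℂ) ∣[(2 : ℤ)] (tmat N (u.val : ℤ) * (Matrix.SpecialLinearGroup.mapGL ℝ γ)) = _
    rw [hmul, SlashAction.slash_mul]
    have h3 : (f : ℍ → ℂ) ∣[(2 : ℤ)] (Matrix.SpecialLinearGroup.mapGL ℝ γ') =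
        (dch ψ (d : ZMod N) ^ 2)⁻¹ • (f : ℍ → ℂ) := h1
    rw [h3, smul_slash_pos _ _ (det_tmat_pos N _)]
  have hdft : ∀ v : ZMod N, 𝓕 (fun x => dch ψ x) (((d ^ 2)⁻¹ : (ZMod N)ˣ) * v) =
      dch ψ (d : ZMod N) ^ 2 * 𝓕 (fun x => dch ψ x) v := by
    intro v
    rw [← ZMod.dft_comp_unitMul]
    rw [ZMod.dft_apply, ZMod.dft_apply, Finset.mul_sum]
    refine Finset.sum_congr rfl fun j _ => ?_
    rw [map_mul, Units.val_pow_eq_pow_val, map_pow]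
    simp only [smul_eq_mul]
    ring
  rw [addTwist, ModularForm.SL_slash, sum_slash_GL]
  have h4 : ∀ u : ZMod N, (((N : ℂ)⁻¹ * 𝓕 (fun x => dch ψ x) u) •
      ((f : ℍ → ℂ) ∣[(2 : ℤ)] tmat N (u.val : ℤ))) ∣[(2 : ℤ)] (γ : GL (Fin 2) ℝ) =
      ((N : ℂ)⁻¹ * 𝓕 (fun x => dch ψ x) u * (dch ψ (d : ZMod N) ^ 2)⁻¹) •
        ((f : ℍ → ℂ) ∣[(2 : ℤ)] tmat N ((((d ^ 2 : (ZMod N)ˣ) : ZMod N) * u).val : ℤ)) := by
    intro u
    rw [← ModularForm.SL_slash, ModularForm.SL_smul_slash, key, smul_smul]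
  simp only [h4]
  refine Fintype.sum_equiv ((d ^ 2).mulLeft) _ _ fun u => ?_
  rw [Units.mulLeft_apply]
  congr 1
  have h5 := hdft (((d ^ 2 : (ZMod N)ˣ) : ZMod N) * u)
  rw [Units.inv_mul_cancel_left] at h5
  rw [h5]
  field_simp

instance neZero_mul : NeZero (N * M) := ⟨mul_ne_zero (NeZero.ne N) (NeZero.ne M)⟩

/-- The twist by `ψ`. -/
def twFun (f : NF (neb hNM ψ)) : CuspForm (Gamma0 (N * M)) 2 :=
  ((NF.qcusp f).addTwist (fun x => dch ψ x)).toForm fun _ hγ => addTwist_slash' hNM ψ f hγ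

theorem qser_twFun (f : NF (neb hNM ψ)) : QSer (twFun hNM ψ f : ℍ → ℂ)
    (fun n => dch ψ n * qCoeff (f : ℍ → ℂ) n) := (NF.qser f).addTwist _

theorem coeff_twFun (f : NF (neb hNM ψ)) (n : ℕ) : qCoeff (twFun hNM ψ f) n =
    dch ψ n * qCoeff (f : ℍ → ℂ) n :=
  QSer.coeff_eq (CongruenceSubgroup.one_mem_strictPeriods_Gamma0 _) (qser_twFun hNM ψ f) n

/-- The twist by `ψ` as a linear map. -/
def tw : NF (neb hNM ψ) →ₗ[ℂ] CuspForm (Gamma0 (N * M)) 2 where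
  toFun := twFun hNM ψ
  map_add' f g := FermatAgent.HeckeEigen.eq_of_qCoeff_eq fun n => by
    rw [FermatAgent.HeckeEigen.qCoeff_add, coeff_twFun, coeff_twFun, coeff_twFun, NF.coeff_add]
    ring
  map_smul' c f := FermatAgent.HeckeEigen.eq_of_qCoeff_eq fun n => by
    rw [RingHom.id_apply, FermatAgent.HeckeEigen.qCoeff_smul, coeff_twFun, coeff_twFun,
      NF.coeff_smul]
    ring

theorem coeff_tw (f : NF (neb hNM ψ)) (n : ℕ) : qCoeff (tw hNM ψ f) n =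
    dch ψ n * qCoeff (f : ℍ → ℂ) n := coeff_twFun hNM ψ f n

omit [NeZero N] [NeZero M] in
theorem wt_neb {ℓ : ℕ} (hℓ : ℓ.Prime) (hℓM : ¬ ℓ ∣ M) :
    (wt (neb hNM ψ) (unitOf M (ℓ : ℕ)) : ℂ) = (dch ψ (ℓ : ZMod N) ^ 2)⁻¹ := by
  have h1 : ((unitOf M ((ℓ : ℕ) : ℤ) : (ZMod M)ˣ) : ZMod M) = ((ℓ : ℕ) : ZMod M) := by
    rw [TwHecke.val_unitOf (TwHecke.isUnit_prime hℓ hℓM)]
    push_cast
    rfl
  have h2 : ((ZMod.unitsMap hNM (unitOf M ((ℓ : ℕ) : ℤ)) : (ZMod N)ˣ) : ZMod N) = (ℓ : ZMod N) := by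
    rw [ZMod.unitsMap_def, Units.coe_map, MonoidHom.coe_coe, h1, map_natCast]
  show (((((ψ ^ 2) (ZMod.unitsMap hNM (unitOf M ((ℓ : ℕ) : ℤ))))⁻¹ : ℂˣ)) : ℂ) = _
  rw [Units.val_inv_eq_inv_val, MonoidHom.pow_apply, Units.val_pow_eq_pow_val, ← dch_coe, h2]

/-- Twisting and Hecke operators. -/
theorem heckeOp_tw (ℓ : Nat.Primes) (f : NF (neb hNM ψ)) :
    heckeOp (N * M) 2 ℓ (tw hNM ψ f) = dch ψ ((ℓ : ℕ) : ZMod N) • tw hNM ψ (tP (neb hNM ψ) ℓ f) := by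
  apply FermatAgent.HeckeEigen.eq_of_qCoeff_eq
  intro n
  rw [FermatAgent.HeckeEigen.qCoeff_heckeOp_two, FermatAgent.HeckeEigen.qCoeff_smul, coeff_tw,
    coeff_tw, coeff_tw, coeff_tP]
  have hdvd : (ℓ : ℕ) ∣ N * M ↔ (ℓ : ℕ) ∣ M :=
    ⟨fun h => (ℓ.2.dvd_mul.mp h).elim (fun h => h.trans hNM) id, fun h => h.mul_left _⟩
  by_cases hM : (ℓ : ℕ) ∣ M
  · rw [if_pos (hdvd.mpr hM), if_pos hM]
    push_cast
    rw [map_mul]
    ring
  · rw [if_neg (fun h => hM (hdvd.mp h)), if_neg hM, wt_neb hNM ψ ℓ.2 hM]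
    have hN : ¬ (ℓ : ℕ) ∣ N := fun h => hM (h.trans hNM)
    have hc : (ℓ : ℕ).Coprime N := (Nat.Prime.coprime_iff_not_dvd ℓ.2).mpr hN
    have hp0 : dch ψ (((ℓ : ℕ)) : ZMod N) ≠ 0 := by
      have := ((ZMod.unitOfCoprime (ℓ : ℕ) hc).isUnit.map (dch ψ)).ne_zero
      rwa [ZMod.coe_unitOfCoprime] at this
    split_ifs with hn
    · obtain ⟨m, rfl⟩ := hn
      rw [Nat.mul_div_cancel_left _ ℓ.2.pos]
      push_cast
      rw [map_mul, map_mul]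
      field_simp
    · push_cast
      rw [map_mul]
      ring

end Fermat.Agent.TwES
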